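import Fermat.Agent.RR.Riemann
import Mathlib.LinearAlgebra.Dual.Lemmas

/-!
# Weil differentials and Serre duality
-/

set_option autoImplicit false

open AlgebraicCurve WithZero Module Polynomial
open scoped IntermediateField

namespace Fermat.Agent.RR

variable {K F : Type*} [Field K] [Field F] [Algebra K F]

/-- Weil differentials vanishing on `A(D) + F`. -/
def weil (D : Divisor K F) : Submodule K (Dual K ↥(repartitions K F)) :=
  (repartitionsOf D ⊔ principalRepartitions K F).dualAnnihilator

theorem mem_weil {D : Divisor K F} {ω : Dual K ↥(repartitions K F)} :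
    ω ∈ weil D ↔ (∀ α ∈ repartitionsOf D, ω α = 0) ∧
      ∀ α ∈ principalRepartitions K F, ω α = 0 := by
  rw [weil, Submodule.mem_dualAnnihilator]
  constructor
  · intro h
    exact ⟨fun α hα => h α (Submodule.mem_sup_left hα), fun α hα => h α (Submodule.mem_sup_right hα)⟩
  · rintro ⟨h1, h2⟩ α hα
    obtain ⟨β, hβ, γ, hγ, rfl⟩ := Submodule.mem_sup.mp hα
    rw [map_add, h1 β hβ, h2 γ hγ, add_zero]

theorem weil_anti {D E : Divisor K F} (h : D ≤ E) : weil E ≤ weil D :=
  Submodule.dualAnnihilator_anti (sup_le_sup_right (repartitionsOf_mono h) _)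

/-- `dim weil D = h¹(D)`. -/
theorem finrank_weil (D : Divisor K F) [FiniteDimensional K (H1 D)] :
    finrank K (weil D) = hone D := by
  rw [weil, ← (Submodule.dualQuotEquivDualAnnihilator _).finrank_eq, Subspace.dual_finrank_eq]
  rfl

theorem finite_weil (D : Divisor K F) [FiniteDimensional K (H1 D)] :
    FiniteDimensional K (weil D) := by
  have : FiniteDimensional K (↥(repartitions K F) ⧸
    (repartitionsOf D ⊔ principalRepartitions K F)) := ‹FiniteDimensional K (H1 D)›
  exact Module.Finite.equiv (Submodule.dualQuotEquivDualAnnihilator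
    (repartitionsOf D ⊔ principalRepartitions K F))

/-- Multiplication by `f` on repartitions. -/
noncomputable def mulRep (f : F) : ↥(repartitions K F) →ₗ[K] ↥(repartitions K F) where
  toFun α := f • α
  map_add' α β := smul_add _ _ _
  map_smul' c α := smul_comm _ _ _

theorem mulRep_apply (f : F) (α : ↥(repartitions K F)) (v : Place K F) :
    (mulRep f α : Place K F → F) v = f * (α : Place K F → F) v := rfl

/-- The action of `f` on functionals. -/
noncomputable def act (f : F) : Dual K ↥(repartitions K F) →ₗ[K] Dual K ↥(repartitions K F) :=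
  (mulRep f).dualMap

theorem act_apply (f : F) (ω : Dual K ↥(repartitions K F)) (α : ↥(repartitions K F)) :
    act f ω α = ω (f • α) := rfl

theorem act_add (f g : F) (ω : Dual K ↥(repartitions K F)) :
    act (f + g) ω = act f ω + act g ω := by
  ext α
  rw [act_apply, add_smul, map_add]
  rfl

theorem act_smul (c : K) (f : F) (ω : Dual K ↥(repartitions K F)) :
    act (c • f) ω = c • act f ω := by
  ext α
  rw [act_apply, smul_assoc, map_smul]
  rfl

theorem act_mul (f g : F) (ω : Dual K ↥(repartitions K F)) :
    act (f * g) ω = act f (act g ω) := by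
  ext α
  rw [act_apply, act_apply, act_apply, mul_comm, mul_smul]

theorem act_one (ω : Dual K ↥(repartitions K F)) : act (1 : F) ω = ω := by
  ext α
  rw [act_apply, one_smul]

theorem act_zero (ω : Dual K ↥(repartitions K F)) : act (0 : F) ω = 0 := by
  ext α
  rw [act_apply, zero_smul, map_zero]
  rfl

theorem act_eq_zero {f : F} (hf : f ≠ 0) {ω : Dual K ↥(repartitions K F)} (h : act f ω = 0) :
    ω = 0 := by
  have := congrArg (act f⁻¹) h
  rwa [← act_mul, inv_mul_cancel₀ hf, act_one, map_zero] at this

theorem smul_mem_principal (f : F) {α : ↥(repartitions K F)}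
    (h : α ∈ principalRepartitions K F) : f • α ∈ principalRepartitions K F := by
  rw [mem_principalRepartitions_iff] at h ⊢
  obtain ⟨g, hg⟩ := h
  refine ⟨f * g, ?_⟩
  funext v
  change f * (α : Place K F → F) v = _
  rw [hg]

theorem smul_mem_repartitionsOf {f : F} {D E : Divisor K F} (hf : f ∈ riemannRochSpace E)
    {α : ↥(repartitions K F)} (h : α ∈ repartitionsOf (D - E)) : f • α ∈ repartitionsOf D := by
  intro v
  change v.adicValuation (f * (α : Place K F → F) v) ≤ _
  rw [map_mul]
  calc _ ≤ exp (E v) * exp ((D - E : Divisor K F) v) := mul_le_mul' (hf v) (h v)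
    _ = exp (D v) := by
      rw [← exp_add, Finsupp.sub_apply]
      congr 1
      ring

theorem act_mem_weil {f : F} {D E : Divisor K F} (hf : f ∈ riemannRochSpace E)
    {ω : Dual K ↥(repartitions K F)} (h : ω ∈ weil D) : act f ω ∈ weil (D - E) := by
  rw [mem_weil] at h ⊢
  refine ⟨fun α hα => ?_, fun α hα => ?_⟩
  · rw [act_apply]
    exact h.1 _ (smul_mem_repartitionsOf hf hα)
  · rw [act_apply]
    exact h.2 _ (smul_mem_principal f hα)

section

variable [HasPrincipalDivisors K F]

theorem mem_riemannRochSpace_neg_div (f : F) :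
    f ∈ riemannRochSpace (-(div f) : Divisor K F) := by
  rw [mem_riemannRochSpace_iff]
  intro v
  right
  rw [Finsupp.neg_apply, div_apply, neg_neg]

theorem act_mem_weil_div {f : F} {D : Divisor K F}
    {ω : Dual K ↥(repartitions K F)} (h : ω ∈ weil D) : act f ω ∈ weil (D + div f) := by
  have := act_mem_weil (mem_riemannRochSpace_neg_div (K := K) f) h
  rwa [sub_neg_eq_add] at this

theorem act_mem_weil_div_iff {f : F} (hf : f ≠ 0) {D : Divisor K F}
    {ω : Dual K ↥(repartitions K F)} : act f ω ∈ weil (D + div f) ↔ ω ∈ weil D := by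
  refine ⟨fun h => ?_, act_mem_weil_div⟩
  have := act_mem_weil_div (f := f⁻¹) h
  rwa [← act_mul, inv_mul_cancel₀ hf, act_one, div_inv, add_neg_cancel_right] at this

variable [hne : Nonempty (Place K F)] [∀ v : Place K F, v.FiniteResidue]

omit [HasPrincipalDivisors K F] in
/-- degrees can be made arbitrarily large -/
theorem exists_degree_ge (n : ℤ) : ∃ D : Divisor K F, n ≤ Divisor.degree D := by
  obtain ⟨v⟩ := id hne
  refine ⟨Finsupp.single v (max n 0), ?_⟩
  rw [Divisor.degree_single]
  have h1 := deg_pos v
  have h2 : n ≤ max n 0 := le_max_left _ _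
  have h3 : 0 ≤ max n 0 := le_max_right _ _
  nlinarith

omit hne [∀ v : Place K F, v.FiniteResidue] in
theorem ell_eq_zero {D : Divisor K F} (hD : Divisor.degree D < 0) : ell D = 0 := by
  rw [ell, riemannRochSpace_eq_bot_of_degree_neg hD, finrank_bot]

/-- The space of Weil differentials has dimension at most one over `F`. -/
theorem exists_act_eq (x : F) (hx : Transcendental K x) [FiniteDimensional K⟮x⟯ F]
    {D₁ D₂ : Divisor K F} {ω₁ ω₂ : Dual K ↥(repartitions K F)} (h₁ : ω₁ ∈ weil D₁)
    (h₂ : ω₂ ∈ weil D₂) (hω : ω₁ ≠ 0) : ∃ f : F, ω₂ = act f ω₁ := by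
  by_contra hcon
  push Not at hcon
  have hfin := finiteDimensional_H1 (K := K) x hx
  set D := D₁ ⊓ D₂ with hD
  have h₁' : ω₁ ∈ weil D := weil_anti inf_le_left h₁
  have h₂' : ω₂ ∈ weil D := weil_anti inf_le_right h₂
  obtain ⟨E, hE⟩ := exists_degree_ge (K := K) (F := F)
    (max (Divisor.degree D + 1) (3 * (genusFF K F : ℤ) - 3 * ell (0 : Divisor K F) -
      Divisor.degree D + 1))
  have hE1 := (le_max_left _ _).trans hE
  have hE2 := (le_max_right _ _).trans hE
  -- the map `L(E) × L(E) → weil (D - E)`
  let φ : (riemannRochSpace E × riemannRochSpace E) →ₗ[K] weil (D - E) :=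
    { toFun := fun p => ⟨act p.1.1 ω₁ + act p.2.1 ω₂,
        add_mem (act_mem_weil p.1.2 h₁') (act_mem_weil p.2.2 h₂')⟩
      map_add' := fun p q => by
        ext : 1
        simp only [Prod.fst_add, Prod.snd_add, Submodule.coe_add, act_add]
        abel
      map_smul' := fun c p => by
        ext : 1
        simp only [Prod.smul_fst, Prod.smul_snd, Submodule.coe_smul, act_smul, smul_add,
          RingHom.id_apply] }
  have hφ : Function.Injective φ := by
    refine (injective_iff_map_eq_zero φ).mpr ?_
    rintro ⟨f, g⟩ hfg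
    have h : act f.1 ω₁ + act g.1 ω₂ = 0 := congrArg Subtype.val hfg
    by_cases hg : (g : F) = 0
    · have h' : act f.1 ω₁ = 0 := by rwa [hg, act_zero, add_zero] at h
      by_cases hf : (f : F) = 0
      · exact Prod.ext (Subtype.ext hf) (Subtype.ext hg)
      · exact absurd (act_eq_zero hf h') hω
    · exfalso
      apply hcon (-(g.1)⁻¹ * f.1)
      rw [act_mul]
      have h' : act f.1 ω₁ = - act g.1 ω₂ := eq_neg_of_add_eq_zero_left h
      rw [h', map_neg, ← act_mul, neg_mul, inv_mul_cancel₀ hg]
      have : act (-1 : F) ω₂ = - ω₂ := by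
        have h3 := act_add (1 : F) (-1) ω₂
        rw [add_neg_cancel, act_zero, act_one] at h3
        exact (neg_eq_of_add_eq_zero_right h3.symm).symm
      rw [this, neg_neg]
  have h3 := finite_weil (D - E)
  have h4 := LinearMap.finrank_le_finrank_of_injective hφ
  rw [Module.finrank_prod, finrank_weil] at h4
  have h5 := riemannRoch (K := K) x hx E
  have h6 := riemannRoch (K := K) x hx (D - E)
  have h7 : Divisor.degree (D - E) = Divisor.degree D - Divisor.degree E := map_sub _ _ _
  have h8 : ell (D - E) = 0 := ell_eq_zero (by omega)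
  change ell E + ell E ≤ hone (D - E) at h4
  omega

/-- There are nonzero Weil differentials. -/
theorem exists_weil_ne_zero (x : F) (hx : Transcendental K x) [FiniteDimensional K⟮x⟯ F] :
    ∃ (D : Divisor K F) (ω : Dual K ↥(repartitions K F)), ω ∈ weil D ∧ ω ≠ 0 := by
  have hfin := finiteDimensional_H1 (K := K) x hx
  obtain ⟨E, hE⟩ := exists_degree_ge (K := K) (F := F) (ell (0 : Divisor K F) + 1)
  have h1 := riemannRoch (K := K) x hx (-E)
  rw [map_neg] at h1
  have h2 : 0 < hone (-E) := by omega
  rw [← finrank_weil] at h2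
  have h3 := finite_weil (-E)
  obtain ⟨ω, hω⟩ : ∃ ω : weil (-E), ω ≠ 0 := by
    by_contra hcon
    push Not at hcon
    have h4 : weil (-E) = ⊥ :=
      (Submodule.eq_bot_iff _).mpr (fun ω h => congrArg Subtype.val (hcon ⟨ω, h⟩))
    rw [h4, finrank_bot] at h2
    omega
  exact ⟨-E, ω.1, ω.2, fun h => hω (Subtype.ext h)⟩

omit hne [∀ v : Place K F, v.FiniteResidue] in
theorem repartitionsOf_sup (D E : Divisor K F) :
    repartitionsOf (D ⊔ E) ≤ repartitionsOf D ⊔ repartitionsOf E := by
  classical
  intro α hα
  let β : Place K F → F := fun v => if E v ≤ D v then (α : Place K F → F) v else 0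
  have hβ : β ∈ repartitions K F := by
    apply mem_repartitions_of_finite
    refine (mem_repartitions_finite (K := K) α.2).subset fun v hv => ?_
    by_contra hcon
    apply hv
    simp only [β]
    split_ifs
    · simpa using hcon
    · simp
  have hβD : (⟨β, hβ⟩ : ↥(repartitions K F)) ∈ repartitionsOf D := by
    intro v
    change v.adicValuation (β v) ≤ _
    simp only [β]
    split_ifs with h
    · have := hα v
      rwa [Finsupp.sup_apply, max_eq_left h] at this
    · simp
  have hβE : α - (⟨β, hβ⟩ : ↥(repartitions K F)) ∈ repartitionsOf E := by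
    intro v
    change v.adicValuation ((α : Place K F → F) v - β v) ≤ _
    simp only [β]
    split_ifs with h
    · simp
    · have := hα v
      rw [Finsupp.sup_apply, max_eq_right (le_of_not_ge h)] at this
      simpa using this
  rw [Submodule.mem_sup]
  exact ⟨_, hβD, _, hβE, by simp⟩

omit hne [∀ v : Place K F, v.FiniteResidue] in
theorem mem_weil_sup {D E : Divisor K F} {ω : Dual K ↥(repartitions K F)} (h₁ : ω ∈ weil D)
    (h₂ : ω ∈ weil E) : ω ∈ weil (D ⊔ E) := by
  rw [mem_weil] at h₁ h₂ ⊢
  refine ⟨fun α hα => ?_, h₁.2⟩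
  obtain ⟨β, hβ, γ, hγ, rfl⟩ := Submodule.mem_sup.mp (repartitionsOf_sup D E hα)
  rw [map_add, h₁.1 β hβ, h₂.1 γ hγ, add_zero]

omit hne [HasPrincipalDivisors K F] in
theorem eq_of_le_of_degree_le {D E : Divisor K F} (h : D ≤ E)
    (hd : Divisor.degree E ≤ Divisor.degree D) : D = E := by
  by_contra hne'
  have h1 : ∃ v, D v < E v := by
    by_contra hcon
    push Not at hcon
    exact hne' (le_antisymm h (fun v => hcon v))
  obtain ⟨v, hv⟩ := h1
  have h2 : Finsupp.single v 1 ≤ E - D := by
    intro w
    by_cases hw : w = v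
    · subst hw
      rw [Finsupp.single_eq_same, Finsupp.sub_apply]
      omega
    · rw [Finsupp.single_eq_of_ne hw, Finsupp.sub_apply]
      have := h w
      omega
  have h3 := degree_mono h2
  rw [map_sub, Divisor.degree_single, one_mul] at h3
  have := deg_pos v
  omega

/-- Existence of the divisor of a nonzero Weil differential. -/
theorem exists_weil_divisor (x : F) (hx : Transcendental K x) [FiniteDimensional K⟮x⟯ F]
    {D₁ : Divisor K F} {ω : Dual K ↥(repartitions K F)} (h₁ : ω ∈ weil D₁) (hω : ω ≠ 0) :
    ∃ W : Divisor K F, ∀ D : Divisor K F, ω ∈ weil D ↔ D ≤ W := by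
  have hfin := finiteDimensional_H1 (K := K) x hx
  have hbound : ∀ D : Divisor K F, ω ∈ weil D →
      Divisor.degree D ≤ 2 * (genusFF K F : ℤ) - ell (0 : Divisor K F) := by
    intro D hD
    let φ : riemannRochSpace D →ₗ[K] weil (D - D) :=
      { toFun := fun p => ⟨act p.1 ω, act_mem_weil p.2 hD⟩
        map_add' := fun p q => by
          ext : 1
          simp only [Submodule.coe_add, act_add]
        map_smul' := fun c p => by
          ext : 1
          simp only [Submodule.coe_smul, act_smul, RingHom.id_apply] }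
    have hφ : Function.Injective φ := by
      refine (injective_iff_map_eq_zero φ).mpr ?_
      intro f hf
      have h : act f.1 ω = 0 := congrArg Subtype.val hf
      by_contra hf0
      exact hω (act_eq_zero (fun h => hf0 (Subtype.ext h)) h)
    have h3 := finite_weil (D - D)
    have h4 := LinearMap.finrank_le_finrank_of_injective hφ
    rw [finrank_weil, sub_self] at h4
    have h5 := riemannRoch (K := K) x hx D
    change ell D ≤ genusFF K F at h4
    omega
  obtain ⟨W, hW, hmax⟩ : ∃ W : Divisor K F, ω ∈ weil W ∧ ∀ D : Divisor K F, ω ∈ weil D →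
      Divisor.degree D ≤ Divisor.degree W := by
    obtain ⟨m, ⟨W, hW, hm⟩, hmax⟩ := Int.exists_greatest_of_bdd
      (P := fun z => ∃ D : Divisor K F, ω ∈ weil D ∧ Divisor.degree D = z)
      ⟨_, fun z ⟨D, hD, hz⟩ => hz ▸ hbound D hD⟩ ⟨_, D₁, h₁, rfl⟩
    exact ⟨W, hW, fun D hD => by rw [hm]; exact hmax _ ⟨D, hD, rfl⟩⟩
  refine ⟨W, fun D => ⟨fun hD => ?_, fun hD => weil_anti hD hW⟩⟩
  have h1 : W = D ⊔ W := eq_of_le_of_degree_le le_sup_right (hmax _ (mem_weil_sup hD hW))
  rw [h1]
  exact le_sup_left

/-- **Serre duality**: `h¹(D) = ℓ(W - D)` for the divisor `W` of a Weil differential. -/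
theorem serre_duality_aux (x : F) (hx : Transcendental K x) [FiniteDimensional K⟮x⟯ F]
    {ω : Dual K ↥(repartitions K F)} (hω : ω ≠ 0) {W : Divisor K F}
    (hW : ∀ D : Divisor K F, ω ∈ weil D ↔ D ≤ W) (D : Divisor K F) :
    hone D = ell (W - D) := by
  have hfin := finiteDimensional_H1 (K := K) x hx
  rw [← finrank_weil]
  have hmem : ω ∈ weil W := (hW W).mpr le_rfl
  let φ : riemannRochSpace (W - D) →ₗ[K] weil D :=
    { toFun := fun p => ⟨act p.1 ω, by
        have := act_mem_weil p.2 hmem
        rwa [sub_sub_cancel] at this⟩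
      map_add' := fun p q => by
        ext : 1
        simp only [Submodule.coe_add, act_add]
      map_smul' := fun c p => by
        ext : 1
        simp only [Submodule.coe_smul, act_smul, RingHom.id_apply] }
  have hinj : Function.Injective φ := by
    refine (injective_iff_map_eq_zero φ).mpr ?_
    intro f hf
    have h : act f.1 ω = 0 := congrArg Subtype.val hf
    by_contra hf0
    exact hω (act_eq_zero (fun h => hf0 (Subtype.ext h)) h)
  have hsurj : Function.Surjective φ := by
    rintro ⟨η, hη⟩
    obtain ⟨f, rfl⟩ := exists_act_eq x hx hmem hη hω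
    by_cases hf : f = 0
    · refine ⟨0, ?_⟩
      rw [map_zero]
      apply Subtype.ext
      change (0 : Dual K ↥(repartitions K F)) = act f ω
      rw [hf, act_zero]
    · have h1 : ω ∈ weil (D - div f) := by
        rw [← act_mem_weil_div_iff hf, sub_add_cancel]
        exact hη
      rw [hW] at h1
      refine ⟨⟨f, ?_⟩, rfl⟩
      rw [mem_riemannRochSpace_iff_div hf]
      rw [sub_le_iff_le_add] at h1
      rw [add_sub, sub_nonneg, add_comm]
      exact h1
  exact ((LinearEquiv.ofBijective φ ⟨hinj, hsurj⟩).finrank_eq).symm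

/-- **Serre duality / Riemann–Roch**: existence of a canonical divisor. -/
theorem exists_canonical (x : F) (hx : Transcendental K x) [FiniteDimensional K⟮x⟯ F] :
    ∃ W : Divisor K F, (∀ D : Divisor K F, hone D = ell (W - D)) ∧
      Divisor.degree W = 2 * (genusFF K F : ℤ) - 2 * ell (0 : Divisor K F) ∧
      ell W = genusFF K F := by
  obtain ⟨D₁, ω, h₁, hω⟩ := exists_weil_ne_zero (K := K) x hx
  obtain ⟨W, hW⟩ := exists_weil_divisor x hx h₁ hω
  have hdual := serre_duality_aux x hx hω hW
  have h0 : ell W = genusFF K F := by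
    have := hdual 0
    rw [sub_zero] at this
    rw [← this]
    rfl
  refine ⟨W, hdual, ?_, h0⟩
  have h1 := hdual W
  rw [sub_self] at h1
  have h2 := riemannRoch (K := K) x hx W
  omega

/-- `h¹(D) = 0` for `deg D > 2g - 2ℓ(0)`. -/
theorem hone_eq_zero (x : F) (hx : Transcendental K x) [FiniteDimensional K⟮x⟯ F]
    {D : Divisor K F}
    (hD : 2 * (genusFF K F : ℤ) - 2 * ell (0 : Divisor K F) < Divisor.degree D) :
    hone D = 0 := by
  obtain ⟨W, hW, hdeg, -⟩ := exists_canonical (K := K) x hx
  rw [hW]
  apply ell_eq_zero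
  rw [map_sub]
  omega

/-- `A(D) + F = A` for `deg D > 2g - 2ℓ(0)`: strong approximation with explicit bound. -/
theorem repartitionsOf_sup_eq_top (x : F) (hx : Transcendental K x) [FiniteDimensional K⟮x⟯ F]
    {D : Divisor K F}
    (hD : 2 * (genusFF K F : ℤ) - 2 * ell (0 : Divisor K F) < Divisor.degree D) :
    repartitionsOf D ⊔ principalRepartitions K F = ⊤ := by
  have hfin := finiteDimensional_H1 (K := K) x hx D
  have h := hone_eq_zero x hx hD
  have h2 : Subsingleton (H1 D) := Module.finrank_zero_iff.mp h
  exact Submodule.Quotient.subsingleton_iff.mp h2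

theorem ell_eq (x : F) (hx : Transcendental K x) [FiniteDimensional K⟮x⟯ F]
    {D : Divisor K F}
    (hD : 2 * (genusFF K F : ℤ) - 2 * ell (0 : Divisor K F) < Divisor.degree D) :
    (ell D : ℤ) = Divisor.degree D + ell (0 : Divisor K F) - genusFF K F := by
  have h := hone_eq_zero x hx hD
  have h2 := riemannRoch (K := K) x hx D
  omega

/-- The subalgebra of elements without poles. -/
def constants (K F : Type*) [Field K] [Field F] [Algebra K F] : Subalgebra K F where
  carrier := {f | ∀ v : Place K F, v.adicValuation f ≤ 1}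
  mul_mem' := by
    intro f g hf hg v
    rw [map_mul]
    exact mul_le_one' (hf v) (hg v)
  add_mem' := by
    intro f g hf hg v
    exact (Valuation.map_add _ _ _).trans (max_le (hf v) (hg v))
  algebraMap_mem' c v := v.adicValuation_algebraMap_le_one c

omit hne [HasPrincipalDivisors K F] [∀ v : Place K F, v.FiniteResidue] in
theorem mem_constants {f : F} :
    f ∈ constants K F ↔ f ∈ riemannRochSpace (0 : Divisor K F) := by
  change (∀ v : Place K F, v.adicValuation f ≤ 1) ↔ ∀ v : Place K F, v.adicValuation f ≤ exp 0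
  rfl

noncomputable def constantsEquiv :
    constants K F ≃ₗ[K] riemannRochSpace (0 : Divisor K F) where
  toFun f := ⟨f.1, mem_constants.mp f.2⟩
  invFun f := ⟨f.1, mem_constants.mpr f.2⟩
  map_add' _ _ := rfl
  map_smul' _ _ := rfl
  left_inv _ := rfl
  right_inv _ := rfl

instance finite_constants : Module.Finite K (constants K F) :=
  Module.Finite.equiv (constantsEquiv (K := K) (F := F)).symm

theorem ell_zero [IsAlgClosed K] : ell (0 : Divisor K F) = 1 := by
  have h1 : Algebra.IsIntegral K (constants K F) := Algebra.IsIntegral.of_finite K _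
  have h2 : Function.Bijective (algebraMap K (constants K F)) :=
    IsAlgClosed.algebraMap_bijective_of_isIntegral
  have e : K ≃ₗ[K] constants K F :=
    (AlgEquiv.ofBijective (Algebra.ofId K (constants K F)) h2).toLinearEquiv
  rw [ell, ← (constantsEquiv (K := K) (F := F)).finrank_eq, ← e.finrank_eq, Module.finrank_self]

end

end Fermat.Agent.RR
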