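import Fermat.Agent.RR.Basic

/-!
# Finiteness of `L(D)`, the Euler characteristic step, monotonicity
-/

set_option autoImplicit false

open AlgebraicCurve WithZero Module

namespace Fermat.Agent.RR

variable {K F : Type*} [Field K] [Field F] [Algebra K F]

instance instFiniteResidue (v : Place K F) [h : v.FiniteResidue] :
    Module.Finite K v.ResidueField := h.finite

/-- A property of divisors invariant under adding a place is constant. -/
theorem divisor_iff {P : Divisor K F → Prop}
    (h : ∀ (D : Divisor K F) (v : Place K F), P D ↔ P (D + Finsupp.single v 1))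
    (D D' : Divisor K F) : P D ↔ P D' := by
  have hn : ∀ (D : Divisor K F) (v : Place K F) (n : ℕ), P D ↔ P (D + Finsupp.single v (n : ℤ)) := by
    intro D v n
    induction n with
    | zero => simp
    | succ n ih =>
      rw [ih, h _ v, add_assoc, ← Finsupp.single_add]
      simp
  have hz : ∀ (D : Divisor K F) (v : Place K F) (n : ℤ), P D ↔ P (D + Finsupp.single v n) := by
    intro D v n
    rcases Int.eq_nat_or_neg n with ⟨m, rfl | rfl⟩
    · exact hn D v m
    · rw [hn (D + Finsupp.single v (-(m : ℤ))) v m, add_assoc, ← Finsupp.single_add]
      simp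
  have h0 : ∀ D E : Divisor K F, P D ↔ P (D + E) := by
    intro D E
    induction E using Finsupp.induction generalizing D with
    | zero => simp
    | single_add v n E _ _ ih =>
      rw [hz D v n, ih (D + Finsupp.single v n), add_assoc]
  rw [h0 D (D' - D)]
  simp

/-- The one-step statements, packaged. -/
theorem step_finiteDimensional_H1 (D : Divisor K F) (v : Place K F) [v.FiniteResidue] :
    FiniteDimensional K (H1 D) ↔ FiniteDimensional K (H1 (D + Finsupp.single v 1)) :=
  six_term_finiteDimensional_iff _ _ (principalRepartitions K F) (repartitionsOf_le_add_single D v)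
    (jump D v) (jump_surjective D v) (jump_eq_zero_iff D v)

theorem step_finiteDimensional_L [Nonempty (Place K F)] (D : Divisor K F) (v : Place K F)
    [v.FiniteResidue] :
    FiniteDimensional K (riemannRochSpace D) ↔
      FiniteDimensional K (riemannRochSpace (D + Finsupp.single v 1)) := by
  have h := six_term_finiteDimensional_inf_iff _ _ (principalRepartitions K F)
    (repartitionsOf_le_add_single D v) (jump D v) (jump_surjective D v) (jump_eq_zero_iff D v)
  constructor
  · intro h1
    have h2 : FiniteDimensional K (principalRepartitions K F ⊓ repartitionsOf D :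
      Submodule K ↥(repartitions K F)) := Module.Finite.equiv (rrEquiv D)
    have h3 := h.mp h2
    exact Module.Finite.equiv (rrEquiv (D + Finsupp.single v 1)).symm
  · intro h1
    have h2 : FiniteDimensional K (principalRepartitions K F ⊓
      repartitionsOf (D + Finsupp.single v 1) :
      Submodule K ↥(repartitions K F)) := Module.Finite.equiv (rrEquiv _)
    have h3 := h.mpr h2
    exact Module.Finite.equiv (rrEquiv D).symm

theorem step_euler [Nonempty (Place K F)] (D : Divisor K F) (v : Place K F) [v.FiniteResidue]
    [FiniteDimensional K (riemannRochSpace (D + Finsupp.single v 1))]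
    [FiniteDimensional K (H1 D)] :
    finrank K (H1 D) + finrank K (riemannRochSpace (D + Finsupp.single v 1)) =
      finrank K (H1 (D + Finsupp.single v 1)) + finrank K (riemannRochSpace D) + v.deg := by
  have h2 : FiniteDimensional K (principalRepartitions K F ⊓
      repartitionsOf (D + Finsupp.single v 1) :
      Submodule K ↥(repartitions K F)) := Module.Finite.equiv (rrEquiv _)
  have h3 : FiniteDimensional K (↥(repartitions K F) ⧸
    (repartitionsOf D ⊔ principalRepartitions K F)) := ‹FiniteDimensional K (H1 D)›
  have h := six_term_finrank _ _ (principalRepartitions K F)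
    (repartitionsOf_le_add_single D v) (jump D v) (jump_surjective D v) (jump_eq_zero_iff D v)
  rw [(rrEquiv (D + Finsupp.single v 1)).finrank_eq, (rrEquiv D).finrank_eq]
  exact h

/-- The map `L(D + v) → κ(v)`. -/
theorem step_L [Nonempty (Place K F)] (D : Divisor K F) (v : Place K F) [v.FiniteResidue]
    [FiniteDimensional K (riemannRochSpace (D + Finsupp.single v 1))] :
    finrank K (riemannRochSpace D) ≤ finrank K (riemannRochSpace (D + Finsupp.single v 1)) ∧
    finrank K (riemannRochSpace (D + Finsupp.single v 1)) ≤
      finrank K (riemannRochSpace D) + v.deg ∧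
    (finrank K (riemannRochSpace (D + Finsupp.single v 1)) =
      finrank K (riemannRochSpace D) + v.deg →
      repartitionsOf (D + Finsupp.single v 1) ≤ repartitionsOf D ⊔ principalRepartitions K F) := by
  have h2 : FiniteDimensional K (principalRepartitions K F ⊓
      repartitionsOf (D + Finsupp.single v 1) :
      Submodule K ↥(repartitions K F)) := Module.Finite.equiv (rrEquiv _)
  have h := six_term_step _ _ (principalRepartitions K F)
    (repartitionsOf_le_add_single D v) (jump D v) (jump_surjective D v) (jump_eq_zero_iff D v)
  rw [← (rrEquiv (D + Finsupp.single v 1)).finrank_eq, ← (rrEquiv D).finrank_eq] at h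
  exact h

section

variable [HasPrincipalDivisors K F]

/-- The divisor of a nonzero function. -/
noncomputable def div (f : F) : Divisor K F := by
  classical
  exact if hf : f = 0 then 0 else (HasPrincipalDivisors.exists_divisor (K := K) f hf).choose

theorem div_apply (f : F) (v : Place K F) : div f v = v.ord f := by
  classical
  unfold div
  split_ifs with hf
  · simp [hf]
  · exact (HasPrincipalDivisors.exists_divisor (K := K) f hf).choose_spec.1 v

theorem degree_div (f : F) : Divisor.degree (div f : Divisor K F) = 0 := by
  classical
  unfold div
  split_ifs with hf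
  · simp
  · exact (HasPrincipalDivisors.exists_divisor (K := K) f hf).choose_spec.2

theorem div_mul {f g : F} (hf : f ≠ 0) (hg : g ≠ 0) :
    (div (f * g) : Divisor K F) = div f + div g := by
  ext v
  rw [Finsupp.add_apply, div_apply, div_apply, div_apply, v.ord_mul hf hg]

theorem div_inv (f : F) : (div f⁻¹ : Divisor K F) = - div f := by
  ext v
  rw [Finsupp.neg_apply, div_apply, div_apply, v.ord_inv]

theorem mem_riemannRochSpace_iff_div {D : Divisor K F} {f : F} (hf : f ≠ 0) :
    f ∈ riemannRochSpace D ↔ 0 ≤ div f + D := by
  rw [mem_riemannRochSpace_iff]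
  constructor
  · intro h v
    rw [Finsupp.add_apply, div_apply, Finsupp.coe_zero, Pi.zero_apply]
    have := (h v).resolve_left hf
    omega
  · intro h v
    right
    have := h v
    rw [Finsupp.add_apply, div_apply, Finsupp.coe_zero, Pi.zero_apply] at this
    omega

omit [HasPrincipalDivisors K F] in
theorem degree_nonneg {D : Divisor K F} (h : 0 ≤ D) : 0 ≤ Divisor.degree D := by
  rw [Divisor.degree, Finsupp.liftAddHom_apply]
  apply Finsupp.sum_nonneg
  intro v _
  exact mul_nonneg (h v) (Int.natCast_nonneg _)

omit [HasPrincipalDivisors K F] in
theorem degree_mono {D E : Divisor K F} (h : D ≤ E) : Divisor.degree D ≤ Divisor.degree E := by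
  have := degree_nonneg (sub_nonneg.mpr h)
  rw [map_sub] at this
  omega

theorem riemannRochSpace_eq_bot_of_degree_neg {D : Divisor K F} (hD : Divisor.degree D < 0) :
    riemannRochSpace D = ⊥ := by
  rw [Submodule.eq_bot_iff]
  intro f hf
  by_contra hf0
  rw [mem_riemannRochSpace_iff_div hf0] at hf
  have := degree_nonneg hf
  rw [map_add, degree_div] at this
  omega

omit [HasPrincipalDivisors K F] in
theorem deg_pos (v : Place K F) [v.FiniteResidue] : 0 < v.deg :=
  Module.finrank_pos (R := K) (M := v.ResidueField)

/-- `L(D)` is finite-dimensional. -/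
instance finiteDimensional_riemannRochSpace [hne : Nonempty (Place K F)]
    [∀ v : Place K F, v.FiniteResidue] (D : Divisor K F) :
    FiniteDimensional K (riemannRochSpace D) := by
  obtain ⟨v⟩ := id hne
  rw [divisor_iff (P := fun D => FiniteDimensional K (riemannRochSpace D))
    (fun D v => step_finiteDimensional_L D v) D (Finsupp.single v (-1))]
  have : riemannRochSpace (Finsupp.single v (-1) : Divisor K F) = ⊥ := by
    apply riemannRochSpace_eq_bot_of_degree_neg
    rw [Divisor.degree_single]
    have := deg_pos v
    omega
  rw [this]
  infer_instance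

end

end Fermat.Agent.RR
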