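import Fermat.Agent.RR.PoleBound
import Mathlib.RingTheory.AlgebraTower

/-!
# Riemann's inequality, finiteness of `H¹`, the Riemann–Roch formula (Euler characteristic form)
-/

set_option autoImplicit false

open AlgebraicCurve WithZero Module Polynomial
open scoped IntermediateField

namespace Fermat.Agent.RR

variable {K F : Type*} [Field K] [Field F] [Algebra K F]

/-- Induction over divisors `E ≥ D`. -/
theorem ge_induction {P : Divisor K F → Prop} (D : Divisor K F) (h0 : P D)
    (hstep : ∀ (E : Divisor K F) (v : Place K F), D ≤ E → P E → P (E + Finsupp.single v 1)) :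
    ∀ E : Divisor K F, D ≤ E → P E := by
  have key : ∀ (s : ℕ) (E : Divisor K F), D ≤ E →
      ((E - D).sum fun _ n => n.toNat) = s → P E := by
    intro s
    induction s with
    | zero =>
      intro E hE hs
      have : E = D := by
        ext v
        have h1 : D v ≤ E v := hE v
        by_contra hne
        have hv : v ∈ (E - D).support := by
          rw [Finsupp.mem_support_iff, Finsupp.sub_apply]
          omega
        have h2 : ((E - D) v).toNat = 0 := (Finset.sum_eq_zero_iff.mp hs) v hv
        rw [Finsupp.sub_apply] at h2
        omega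
      rw [this]
      exact h0
    | succ s ih =>
      intro E hE hs
      obtain ⟨v, hv⟩ : ∃ v, (E - D) v ≠ 0 := by
        by_contra hcon
        push Not at hcon
        have : E - D = 0 := Finsupp.ext hcon
        rw [this] at hs
        simp at hs
      have hEv : D v ≤ E v := hE v
      rw [Finsupp.sub_apply] at hv
      set E' : Divisor K F := E - Finsupp.single v 1 with hE'
      have hDE' : D ≤ E' := by
        intro w
        rw [hE', Finsupp.sub_apply]
        by_cases hw : w = v
        · subst hw
          simp only [Finsupp.single_eq_same]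
          omega
        · rw [Finsupp.single_eq_of_ne hw]
          have := hE w
          omega
      have hEE' : E = E' + Finsupp.single v 1 := by simp [hE']
      have hsum : ((E' - D).sum fun _ n => n.toNat) = s := by
        have h1 : E - D = (E' - D) + Finsupp.single v 1 := by rw [hEE']; abel
        have h2 : ((E - D).sum fun _ n => n.toNat) =
            ((E' - D).sum fun _ n => n.toNat) + 1 := by
          classical
          have hsub : (E' - D).support ⊆ insert v (E - D).support := by
            intro w hw
            by_cases hwv : w = v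
            · simp [hwv]
            · rw [Finset.mem_insert]; right
              rw [Finsupp.mem_support_iff] at hw ⊢
              rw [h1, Finsupp.add_apply, Finsupp.single_eq_of_ne hwv, add_zero]
              exact hw
          have hvmem : v ∈ (E - D).support := by
            rw [Finsupp.mem_support_iff, Finsupp.sub_apply]; exact hv
          rw [Finset.insert_eq_of_mem hvmem] at hsub
          rw [Finsupp.sum, Finsupp.sum_of_support_subset (E' - D) hsub _ (by simp),
            ← Finset.add_sum_erase _ _ hvmem, ← Finset.add_sum_erase _ (fun w => ((E' - D) w).toNat)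
              hvmem]
          have h3 : ((E - D) v).toNat = ((E' - D) v).toNat + 1 := by
            rw [h1, Finsupp.add_apply, Finsupp.single_eq_same]
            have h4 : 0 ≤ (E' - D) v := by
              rw [Finsupp.sub_apply]
              have : D v ≤ E' v := hDE' v
              omega
            omega
          rw [h3, Finset.sum_congr rfl (fun w hw => by
            rw [h1, Finsupp.add_apply, Finsupp.single_eq_of_ne (Finset.ne_of_mem_erase hw),
              add_zero])]
          ring
        omega
      rw [hEE']
      exact hstep E' v hDE' (ih E' hDE' hsum)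
  intro E hE
  exact key _ E hE rfl

/-- `ℓ(D) = dim L(D)`. -/
noncomputable def ell (D : Divisor K F) : ℕ := finrank K (riemannRochSpace D)

/-- `h¹(D) = dim H¹(D)`. -/
noncomputable def hone (D : Divisor K F) : ℕ := finrank K (H1 D)

section

variable [HasPrincipalDivisors K F] [hne : Nonempty (Place K F)]
  [∀ v : Place K F, v.FiniteResidue]


omit [HasPrincipalDivisors K F] hne [∀ v : Place K F, v.FiniteResidue] in
theorem degree_add_single (D : Divisor K F) (v : Place K F) :
    Divisor.degree (D + Finsupp.single v 1) = Divisor.degree D + v.deg := by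
  rw [map_add, Divisor.degree_single, one_mul]

theorem ell_mono {D E : Divisor K F} (h : D ≤ E) : ell D ≤ ell E := by
  apply Submodule.finrank_mono
  intro f hf v
  exact (hf v).trans (exp_le_exp.mpr (h v))

theorem ell_le {D E : Divisor K F} (h : D ≤ E) :
    (ell E : ℤ) ≤ ell D + (Divisor.degree E - Divisor.degree D) := by
  refine ge_induction (P := fun E => (ell E : ℤ) ≤ ell D + (Divisor.degree E - Divisor.degree D))
    D (by simp) ?_ E h
  intro E v _ ih
  have h1 := (step_L E v).2.1
  have h2 := degree_add_single E v
  change ell (E + Finsupp.single v 1) ≤ ell E + v.deg at h1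
  omega

/-- the pole divisor of a function -/
noncomputable def pole (f : F) : Divisor K F := (-(div f)) ⊔ 0

omit hne [∀ v : Place K F, v.FiniteResidue] in
theorem pole_apply (f : F) (v : Place K F) : (pole f : Divisor K F) v = max (-v.ord f) 0 := by
  rw [pole, Finsupp.sup_apply, Finsupp.neg_apply, div_apply]
  rfl

omit hne [∀ v : Place K F, v.FiniteResidue] in
theorem pole_nonneg (f : F) : 0 ≤ (pole f : Divisor K F) := le_sup_right

omit hne [∀ v : Place K F, v.FiniteResidue] in
theorem adicValuation_le_pole (f : F) (v : Place K F) :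
    v.adicValuation f ≤ exp ((pole f : Divisor K F) v) := by
  rw [pole_apply, v.adicValuation_le_exp_iff]
  right
  have := le_max_left (-v.ord f) 0
  omega

omit hne [∀ v : Place K F, v.FiniteResidue] in
theorem mem_riemannRochSpace_pole (f : F) : f ∈ riemannRochSpace (pole f : Divisor K F) :=
  fun v => adicValuation_le_pole f v

omit hne in
theorem degree_pole_le (x : F) [FiniteDimensional K⟮x⟯ F] :
    Divisor.degree (pole x : Divisor K F) ≤ finrank K⟮x⟯ F := by
  classical
  set T : Finset (Place K F) := (pole x : Divisor K F).support with hT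
  have hT' : ∀ v ∈ T, v.ord x < 0 := by
    intro v hv
    rw [hT, Finsupp.mem_support_iff, pole_apply] at hv
    by_contra h
    apply hv
    rw [max_eq_right]
    omega
  have h := sum_poles_le x T hT'
  rw [Divisor.degree, Finsupp.liftAddHom_apply, Finsupp.sum]
  calc _ = ((∑ v ∈ T, (-v.ord x).toNat * v.deg : ℕ) : ℤ) := by
        push_cast
        refine Finset.sum_congr rfl fun v hv => ?_
        rw [pole_apply]
        change max (-v.ord x) 0 * (v.deg : ℤ) = _
        have := hT' v hv
        congr 1
        omega
    _ ≤ _ := by exact_mod_cast h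

/-- Lower bound for `ℓ(l·(x)_∞ + C)`. -/
theorem exists_ell_ge (x : F) (hx : Transcendental K x) [FiniteDimensional K⟮x⟯ F] :
    ∃ C : Divisor K F, 0 ≤ C ∧ ∀ l : ℕ,
      finrank K⟮x⟯ F * (l + 1) ≤ ell (l • (pole x : Divisor K F) + C) := by
  classical
  let y := Module.finBasis K⟮x⟯ F
  refine ⟨∑ i, (pole (y i) : Divisor K F), Finset.sum_nonneg fun i _ => pole_nonneg _,
    fun l => ?_⟩
  -- powers of `x` are linearly independent over `K`
  have hgen : Transcendental K (IntermediateField.AdjoinSimple.gen K x) := by
    intro h
    apply hx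
    exact (isAlgebraic_algebraMap_iff (algebraMap K⟮x⟯ F).injective).mpr h
  have hpow : LinearIndependent K
      (fun j : Fin (l + 1) => (IntermediateField.AdjoinSimple.gen K x) ^ (j : ℕ)) := by
    rw [Fintype.linearIndependent_iff]
    intro c hc
    by_contra hcon
    apply hgen
    set p : K[X] := ∑ j : Fin (l + 1), Polynomial.monomial (j : ℕ) (c j) with hp
    refine ⟨p, ?_, ?_⟩
    · intro hp0
      apply hcon
      intro j
      have := congrArg (fun q : K[X] => q.coeff (j : ℕ)) hp0
      simp only [hp, Polynomial.finset_sum_coeff, Polynomial.coeff_monomial,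
        Polynomial.coeff_zero] at this
      rw [Finset.sum_eq_single j] at this
      · simpa using this
      · intro k _ hk
        rw [if_neg]
        intro h
        exact hk (Fin.ext h)
      · simp
    · rw [hp, map_sum]
      simp only [Polynomial.aeval_monomial]
      rw [← hc]
      refine Finset.sum_congr rfl fun j _ => ?_
      rw [Algebra.smul_def]
  have hli := linearIndependent_smul hpow y.linearIndependent
  have hmem : ∀ ij : Fin (l + 1) × Fin (finrank K⟮x⟯ F),
      (IntermediateField.AdjoinSimple.gen K x) ^ (ij.1 : ℕ) • y ij.2 ∈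
        riemannRochSpace (l • (pole x : Divisor K F) + ∑ i, (pole (y i) : Divisor K F)) := by
    rintro ⟨j, i⟩ v
    have h1 : (IntermediateField.AdjoinSimple.gen K x) ^ (j : ℕ) • y i = x ^ (j : ℕ) * y i := by
      rw [Algebra.smul_def]
      simp
    simp only
    rw [h1, map_mul, map_pow, Finsupp.add_apply, exp_add, Finsupp.smul_apply, nsmul_eq_mul]
    have h2 : v.adicValuation x ^ (j : ℕ) ≤ exp (((l : ℕ) : ℤ) * (pole x : Divisor K F) v) := by
      calc v.adicValuation x ^ (j : ℕ) ≤ exp ((pole x : Divisor K F) v) ^ (j : ℕ) :=
            pow_le_pow_left₀ (by simp) (adicValuation_le_pole x v) _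
        _ = exp ((j : ℕ) • (pole x : Divisor K F) v) := by rw [exp_nsmul]
        _ ≤ _ := by
            rw [exp_le_exp, nsmul_eq_mul]
            have h3 : 0 ≤ (pole x : Divisor K F) v := pole_nonneg x v
            have h4 : ((j : ℕ) : ℤ) ≤ l := by
              have := j.2
              omega
            exact mul_le_mul_of_nonneg_right h4 h3
    have h5 : v.adicValuation (y i) ≤ exp ((∑ i, (pole (y i) : Divisor K F)) v) := by
      refine (adicValuation_le_pole (K := K) (y i) v).trans ?_
      rw [exp_le_exp, Finsupp.finset_sum_apply]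
      exact Finset.single_le_sum (f := fun i => (pole (y i) : Divisor K F) v)
        (fun i _ => pole_nonneg (y i) v) (Finset.mem_univ i)
    exact mul_le_mul' h2 h5
  have hli' : LinearIndependent K (fun ij : Fin (l + 1) × Fin (finrank K⟮x⟯ F) =>
      (⟨_, hmem ij⟩ : riemannRochSpace (l • (pole x : Divisor K F) +
        ∑ i, (pole (y i) : Divisor K F)))) := by
    apply LinearIndependent.of_comp (Submodule.subtype _)
    exact hli
  have := hli'.fintype_card_le_finrank
  rw [Fintype.card_prod, Fintype.card_fin, Fintype.card_fin] at this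
  rw [mul_comm]
  exact this

/-- Multiplication by `f` gives `ℓ(D + div f) = ℓ(D)`. -/
theorem ell_add_div (D : Divisor K F) {f : F} (hf : f ≠ 0) : ell (D + div f) = ell D := by
  have hle : ∀ (D : Divisor K F) {f : F}, f ≠ 0 → ell (D + div f) ≤ ell D := by
    intro D f hf
    let φ : riemannRochSpace (D + div f) →ₗ[K] riemannRochSpace D :=
      { toFun := fun g => ⟨f * g.1, by
          intro v
          have h1 := g.2 v
          rw [map_mul, v.adicValuation_eq_exp_neg_ord hf]
          calc exp (-v.ord f) * v.adicValuation g.1 ≤
              exp (-v.ord f) * exp ((D + div f : Divisor K F) v) := mul_le_mul_right h1 _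
            _ = exp (D v) := by
              rw [← exp_add, Finsupp.add_apply, div_apply]
              congr 1
              ring⟩
        map_add' := fun a b => by ext; simp [mul_add]
        map_smul' := fun c a => by ext; simp [mul_smul_comm] }
    apply LinearMap.finrank_le_finrank_of_injective (f := φ)
    intro a b hab
    have := congrArg Subtype.val hab
    exact Subtype.ext (mul_left_cancel₀ hf this)
  refine le_antisymm (hle D hf) ?_
  have := hle (D + div f) (inv_ne_zero hf)
  rwa [div_inv, add_neg_cancel_right] at this

/-- `r(D) = deg D - ℓ(D)` is bounded above. -/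
theorem riemann_inequality (x : F) (hx : Transcendental K x) [FiniteDimensional K⟮x⟯ F] :
    ∃ γ : ℤ, ∀ D : Divisor K F, Divisor.degree D - ell D ≤ γ := by
  obtain ⟨C, hC, hell⟩ := exists_ell_ge (K := K) x hx
  set n := finrank K⟮x⟯ F with hn
  have hnpos : 0 < n := Module.finrank_pos
  set B : Divisor K F := pole x with hB
  have hdegB : Divisor.degree B ≤ n := degree_pole_le x
  refine ⟨Divisor.degree C - n, fun D => ?_⟩
  -- choose `l` large
  set Dp : Divisor K F := D ⊔ 0 with hDp
  have hDp0 : 0 ≤ Dp := le_sup_right
  have hDDp : D ≤ Dp := le_sup_left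
  set l : ℕ := (Divisor.degree Dp).toNat with hl
  have h1 : (n : ℤ) * (l + 1) ≤ ell (l • B + C) := by exact_mod_cast hell l
  have h2 : 0 < ell (l • B + C - D) := by
    have h3 : l • B + C - Dp ≤ l • B + C := by
      rw [sub_le_self_iff]; exact hDp0
    have h4 := ell_le h3
    rw [map_sub] at h4
    have h5 : l • B + C - Dp ≤ l • B + C - D := sub_le_sub_left hDDp _
    have h6 := ell_mono h5
    have h7 : Divisor.degree Dp ≤ l := Int.self_le_toNat _
    have h8 : (l : ℤ) + 1 ≤ (n : ℤ) * (l + 1) := by
      have : (1 : ℤ) ≤ n := by exact_mod_cast hnpos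
      nlinarith
    omega
  obtain ⟨f, hf0⟩ : ∃ f : riemannRochSpace (l • B + C - D), f ≠ 0 := by
    have := Module.finrank_pos_iff.mp h2
    exact exists_ne 0
  have hf : (f : F) ≠ 0 := fun h => hf0 (Subtype.ext h)
  have h3 := (mem_riemannRochSpace_iff_div hf).mp f.2
  have h4 : D ≤ l • B + C + div (f : F) := by
    rw [← sub_nonneg]
    convert h3 using 1
    abel
  have h5 := ell_le h4
  rw [ell_add_div _ hf, map_add, map_add, degree_div, map_nsmul, nsmul_eq_mul, add_zero] at h5
  have h6 : (l : ℤ) * Divisor.degree B ≤ l * n := by
    exact mul_le_mul_of_nonneg_left hdegB (by positivity)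
  have h7 : (n : ℤ) * (l + 1) = l * n + n := by ring
  omega

omit hne [∀ v : Place K F, v.FiniteResidue] in
theorem mem_repartitions_finite {α : Place K F → F} (hα : α ∈ repartitions K F) :
    {v : Place K F | ¬ v.adicValuation (α v) ≤ 1}.Finite := by
  induction hα using Algebra.adjoin_induction with
  | mem a ha => exact ha
  | algebraMap f =>
    refine ((pole f : Divisor K F).support.finite_toSet).subset fun v hv => ?_
    rw [Finset.mem_coe, Finsupp.mem_support_iff]
    intro h0
    apply hv
    have := adicValuation_le_pole (K := K) f v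
    rwa [h0, exp_zero] at this
  | add a b _ _ ha hb =>
    refine (ha.union hb).subset fun v hv => ?_
    by_contra hcon
    simp only [Set.mem_union, Set.mem_setOf_eq, not_or, not_not] at hcon
    exact hv ((Valuation.map_add _ _ _).trans (max_le hcon.1 hcon.2))
  | mul a b _ _ ha hb =>
    refine (ha.union hb).subset fun v hv => ?_
    by_contra hcon
    simp only [Set.mem_union, Set.mem_setOf_eq, not_or, not_not] at hcon
    apply hv
    rw [Pi.mul_apply, map_mul]
    exact mul_le_one' hcon.1 hcon.2

omit hne [∀ v : Place K F, v.FiniteResidue] in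
/-- Every repartition lies in some `A(D)`, `D ≥ D₀`. -/
theorem exists_mem_repartitionsOf (D₀ : Divisor K F) (α : ↥(repartitions K F)) :
    ∃ D : Divisor K F, D₀ ≤ D ∧ α ∈ repartitionsOf D := by
  classical
  have hfin := mem_repartitions_finite α.2
  have hfin' : {v : Place K F | max (-v.ord ((α : Place K F → F) v)) 0 ≠ 0}.Finite := by
    refine hfin.subset fun v hv h => hv ?_
    rw [v.adicValuation_le_one_iff] at h
    rw [max_eq_right]
    rcases h with h | h
    · rw [h]; simp
    · omega
  let E : Divisor K F := Finsupp.ofSupportFinite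
    (fun v => max (-v.ord ((α : Place K F → F) v)) 0) hfin'
  refine ⟨D₀ ⊔ E, le_sup_left, ?_⟩
  have hE : α ∈ repartitionsOf E := by
    rw [mem_repartitionsOf_iff]
    intro v
    right
    change -(max (-v.ord ((α : Place K F → F) v)) 0) ≤ _
    have := le_max_left (-v.ord ((α : Place K F → F) v)) 0
    omega
  exact repartitionsOf_mono le_sup_right hE

theorem exists_H1_eq_top (x : F) (hx : Transcendental K x) [FiniteDimensional K⟮x⟯ F] :
    ∃ D₀ : Divisor K F, repartitionsOf D₀ ⊔ principalRepartitions K F = ⊤ := by
  obtain ⟨γ, hγ⟩ := riemann_inequality (K := K) x hx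
  -- choose `D₀` maximizing `r`
  obtain ⟨D₀, hD₀⟩ : ∃ D₀ : Divisor K F, ∀ D : Divisor K F,
      Divisor.degree D - ell D ≤ Divisor.degree D₀ - ell D₀ := by
    have hb : ∀ z : ℤ, (∃ D : Divisor K F, Divisor.degree D - ell D = z) → z ≤ γ := by
      rintro z ⟨D, rfl⟩; exact hγ D
    obtain ⟨m, ⟨D₀, hm⟩, hmax⟩ := Int.exists_greatest_of_bdd
      (P := fun z => ∃ D : Divisor K F, Divisor.degree D - ell D = z) ⟨γ, hb⟩ ⟨_, 0, rfl⟩
    exact ⟨D₀, fun D => by rw [hm]; exact hmax _ ⟨D, rfl⟩⟩
  refine ⟨D₀, ?_⟩
  have hkey : ∀ D : Divisor K F, D₀ ≤ D →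
      (Divisor.degree D - ell D = Divisor.degree D₀ - ell D₀) ∧
      repartitionsOf D ≤ repartitionsOf D₀ ⊔ principalRepartitions K F := by
    refine ge_induction D₀ ⟨rfl, le_sup_left⟩ ?_
    rintro E v hE ⟨h1, h2⟩
    have h3 := step_L E v
    change ell E ≤ ell (E + Finsupp.single v 1) ∧ ell (E + Finsupp.single v 1) ≤ ell E + v.deg ∧
      (ell (E + Finsupp.single v 1) = ell E + v.deg → _) at h3
    have h4 := hD₀ (E + Finsupp.single v 1)
    rw [degree_add_single] at h4
    have h5 : ell (E + Finsupp.single v 1) = ell E + v.deg := by omega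
    refine ⟨by rw [degree_add_single]; omega, (h3.2.2 h5).trans ?_⟩
    exact sup_le h2 le_sup_right
  rw [eq_top_iff]
  intro α _
  obtain ⟨D, hD, hα⟩ := exists_mem_repartitionsOf D₀ α
  exact (hkey D hD).2 hα

/-- `H¹(D)` is finite-dimensional. -/
theorem finiteDimensional_H1 (x : F) (hx : Transcendental K x) [FiniteDimensional K⟮x⟯ F]
    (D : Divisor K F) : FiniteDimensional K (H1 D) := by
  obtain ⟨D₀, hD₀⟩ := exists_H1_eq_top (K := K) x hx
  rw [divisor_iff (P := fun D => FiniteDimensional K (H1 D))
    (fun D v => step_finiteDimensional_H1 D v) D D₀]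
  have : Subsingleton (H1 D₀) := by
    rw [H1, hD₀]
    infer_instance
  infer_instance


/-- **Riemann–Roch** (Euler characteristic form):
`ℓ(D) - h¹(D) = deg D + ℓ(0) - genus`. -/
theorem riemannRoch (x : F) (hx : Transcendental K x) [FiniteDimensional K⟮x⟯ F]
    (D : Divisor K F) :
    (ell D : ℤ) - hone D = Divisor.degree D + ell (0 : Divisor K F) - genusFF K F := by
  have hfin := finiteDimensional_H1 (K := K) x hx
  have h := divisor_iff (K := K) (F := F) (P := fun D => (ell D : ℤ) - hone D - Divisor.degree D =
    ell (0 : Divisor K F) - genusFF K F) (fun D v => by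
      have h1 := step_euler D v
      have h2 := degree_add_single D v
      change hone D + ell (D + Finsupp.single v 1) = hone (D + Finsupp.single v 1) + ell D + v.deg
        at h1
      constructor <;> intro h <;> omega) D 0
  have h0 : (ell (0 : Divisor K F) : ℤ) - hone (0 : Divisor K F) -
      Divisor.degree (0 : Divisor K F) = ell (0 : Divisor K F) - genusFF K F := by
    rw [map_zero, sub_zero]
    rfl
  have := h.mpr h0
  omega

end

end Fermat.Agent.RR
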