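import Fermat.Prelude.Def_AlgebraicCurve_Repartitions
import Mathlib.Analysis.AbsoluteValue.Equivalence

/-!
# Weak approximation for finitely many places of a function field
-/

set_option autoImplicit false

open AlgebraicCurve WithZero
open scoped NNReal

namespace Fermat.Agent.RR

variable {K F : Type*} [Field K] [Field F] [Algebra K F]

/-- membership in the valuation ring of a place, in terms of `adicValuation`. -/
theorem mem_iff_adicValuation_le_one (v : Place K F) (x : F) :
    x ∈ v.toValuationSubring ↔ v.adicValuation x ≤ 1 := by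
  constructor
  · exact v.adicValuation_le_one_of_mem
  · intro h
    by_contra hx
    have hx0 : x ≠ 0 := fun h => hx (h ▸ v.toValuationSubring.zero_mem)
    have hxi : x⁻¹ ∈ v.toValuationSubring :=
      (v.toValuationSubring.mem_or_inv_mem x).resolve_left hx
    have h1 := v.adicValuation_le_one_of_mem hxi
    have h2 : v.adicValuation x = 1 := by
      refine le_antisymm h ?_
      rw [map_inv₀] at h1
      rwa [inv_le_one₀ (zero_lt_iff.mpr (v.adicValuation_ne_zero hx0))] at h1
    have h3 : v.adicValuation ((⟨x⁻¹, hxi⟩ : v.toValuationSubring) : F) = 1 := by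
      change v.adicValuation x⁻¹ = 1
      rw [map_inv₀, h2, inv_one]
    rw [v.adicValuation_coe_eq_one_iff] at h3
    obtain ⟨b, hb⟩ := h3.exists_right_inv
    have hb' : x⁻¹ * (b : F) = 1 := by
      have h := congrArg (Subtype.val) hb
      simpa using h
    have hbx : (b : F) = x := by
      field_simp at hb'
      exact hb'
    exact hx (hbx ▸ b.2)

/-- The real absolute value attached to a place. -/
noncomputable def absv (v : Place K F) : AbsoluteValue F ℝ :=
  v.heightOneSpectrum.adicAbv (K := F) (b := 2) one_lt_two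

theorem absv_apply (v : Place K F) (x : F) :
    absv v x = (WithZeroMulInt.toNNReal (e := 2) two_ne_zero (v.adicValuation x) : ℝ≥0) := rfl

theorem toNNReal_exp (n : ℤ) :
    WithZeroMulInt.toNNReal (e := 2) two_ne_zero (exp n) = 2 ^ n := by
  rw [WithZeroMulInt.toNNReal_neg_apply _ exp_ne_zero]
  rfl

theorem absv_lt_iff (v : Place K F) (x : F) (n : ℤ) :
    absv v x < 2 ^ n ↔ v.adicValuation x < exp n := by
  rw [absv_apply, ← (WithZeroMulInt.toNNReal_strictMono (e := 2) one_lt_two).lt_iff_lt,
    toNNReal_exp, ← NNReal.coe_lt_coe]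
  simp

theorem absv_le_one_iff (v : Place K F) (x : F) :
    absv v x ≤ 1 ↔ v.adicValuation x ≤ 1 := by
  rw [absv_apply, ← WithZeroMulInt.toNNReal_le_one_iff (e := 2) one_lt_two,
    ← NNReal.coe_le_coe]
  simp

theorem absv_isNontrivial (v : Place K F) : (absv v).IsNontrivial := by
  obtain ⟨π, hπ⟩ := IsDiscreteValuationRing.exists_irreducible v.toValuationSubring
  refine ⟨(π : F), ?_, ?_⟩
  · simpa [ne_eq, ZeroMemClass.coe_eq_zero] using hπ.ne_zero
  · have h := (absv_lt_iff v (π : F) 0).mpr (by
      rw [v.adicValuation_coe_irreducible hπ]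
      exact exp_lt_exp.mpr (by norm_num))
    simp only [zpow_zero] at h
    exact h.ne

/-- A discrete valuation ring of a place is maximal: an inclusion of valuation rings of places is
an equality. -/
theorem eq_of_le {v w : Place K F} (h : v.toValuationSubring ≤ w.toValuationSubring) : v = w := by
  apply Place.ext
  refine le_antisymm h ?_
  intro x hx
  by_contra hxv
  -- `x ∉ O_v`, so `O_v[x] = F` since `O_v` is a DVR; hence `O_w = F`.
  apply w.ne_top'
  have hx0 : x ≠ 0 := fun h => hxv (h ▸ v.toValuationSubring.zero_mem)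
  have hval : exp (1 : ℤ) ≤ v.adicValuation x := by
    rw [v.adicValuation_eq_exp_neg_ord hx0, exp_le_exp]
    rw [mem_iff_adicValuation_le_one, v.adicValuation_eq_exp_neg_ord hx0, ← exp_zero,
      exp_le_exp] at hxv
    omega
  refine SetLike.ext fun y => ⟨fun _ => ValuationSubring.mem_top y, fun _ => ?_⟩
  rcases eq_or_ne y 0 with rfl | hy
  · exact zero_mem _
  -- choose `n` with `y / x ^ n ∈ O_v`
  set n := (-(v.ord y)).toNat with hn
  have h1 : y * (x ^ n)⁻¹ ∈ v.toValuationSubring := by
    rw [mem_iff_adicValuation_le_one, map_mul, map_inv₀, map_pow]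
    rw [mul_inv_le_iff₀ (zero_lt_iff.mpr (pow_ne_zero _ (v.adicValuation_ne_zero hx0))), one_mul]
    calc v.adicValuation y = exp (-v.ord y) := v.adicValuation_eq_exp_neg_ord hy
      _ ≤ exp ((n : ℤ)) := by rw [exp_le_exp]; exact Int.self_le_toNat _
      _ = (exp (1 : ℤ)) ^ n := by rw [← exp_nsmul]; simp
      _ ≤ v.adicValuation x ^ n := pow_le_pow_left₀ (by simp) hval n
  have h2 : y = (y * (x ^ n)⁻¹) * x ^ n := by
    field_simp
  rw [h2]
  exact mul_mem (h h1) (pow_mem hx n)

theorem not_isEquiv {v w : Place K F} (h : v ≠ w) : ¬ (absv v).IsEquiv (absv w) := by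
  intro he
  apply h
  apply eq_of_le
  intro x hx
  rw [mem_iff_adicValuation_le_one, ← absv_le_one_iff] at hx ⊢
  exact he.le_one_iff.mp hx

/-- **Weak approximation** for places of a function field. -/
theorem exists_approx (T : Finset (Place K F)) (a : Place K F → F) (N : ℤ) :
    ∃ x : F, ∀ v ∈ T, v.adicValuation (x - a v) < exp N := by
  have hd := AbsoluteValue.denseRange_algebraMap_pi (F := F) (ι := T)
    (v := fun v => absv (v : Place K F)) (fun v => absv_isNontrivial _)
    (fun v w hvw => not_isEquiv (fun h => hvw (Subtype.ext h)))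
  have hpos : (0 : ℝ) < 2 ^ N := by positivity
  obtain ⟨x, hx⟩ := Metric.denseRange_iff.mp hd
    (fun v => WithAbs.toAbs (absv (v : Place K F)) (a v)) (2 ^ N) hpos
  refine ⟨x, fun v hv => ?_⟩
  rw [← absv_lt_iff]
  have h1 := (dist_pi_lt_iff hpos).mp hx ⟨v, hv⟩
  rw [dist_comm, dist_eq_norm] at h1
  exact h1

/-- Weak approximation with different precisions. -/
theorem exists_approx' (T : Finset (Place K F)) (a : Place K F → F) (N : Place K F → ℤ) :
    ∃ x : F, ∀ v ∈ T, v.adicValuation (x - a v) ≤ exp (N v) := by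
  classical
  by_cases hT : T.Nonempty
  · obtain ⟨x, hx⟩ := exists_approx T a (T.inf' hT N)
    refine ⟨x, fun v hv => (hx v hv).le.trans ?_⟩
    rw [exp_le_exp]
    exact Finset.inf'_le N hv
  · rw [Finset.not_nonempty_iff_eq_empty] at hT
    subst hT
    exact ⟨0, by simp⟩

end Fermat.Agent.RR
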