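import Fermat.Agent.RR.Jump

/-!
# Riemann–Roch spaces and `H¹`: the one-step exact sequence, finiteness, Euler characteristic
-/

set_option autoImplicit false

open AlgebraicCurve WithZero Module

namespace Fermat.Agent.RR

variable {K F : Type*} [Field K] [Field F] [Algebra K F]

/-- The repartition with value `f` at `v` and `0` elsewhere. -/
noncomputable def singleRep (v : Place K F) (f : F) : ↥(repartitions K F) := by
  classical
  exact ⟨fun w => if w = v then f else 0, mem_repartitions_of_finite
    ((Set.finite_singleton v).subset (by
      intro w hw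
      by_contra hne
      rw [Set.mem_singleton_iff] at hne
      apply hw
      simp [hne]))⟩

theorem singleRep_same (v : Place K F) (f : F) : (singleRep v f : Place K F → F) v = f := by
  simp [singleRep]

theorem singleRep_ne {v w : Place K F} (h : w ≠ v) (f : F) :
    (singleRep v f : Place K F → F) w = 0 := by
  simp [singleRep, h]

theorem mem_repartitionsOf {D : Divisor K F} {α : ↥(repartitions K F)} :
    α ∈ repartitionsOf D ↔ ∀ v : Place K F, (α : Place K F → F) v ∈ ball v (D v) := Iff.rfl

theorem mem_riemannRochSpace {D : Divisor K F} {f : F} :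
    f ∈ riemannRochSpace D ↔ ∀ v : Place K F, f ∈ ball v (D v) := Iff.rfl

theorem le_add_single (D : Divisor K F) (v : Place K F) :
    D ≤ D + Finsupp.single v 1 := by
  intro w
  rw [Finsupp.add_apply]
  by_cases h : v = w
  · subst h; simp
  · rw [Finsupp.single_eq_of_ne' h]; simp

theorem add_single_apply_same (D : Divisor K F) (v : Place K F) :
    (D + Finsupp.single v 1 : Divisor K F) v = D v + 1 := by simp

theorem add_single_apply_ne (D : Divisor K F) {v w : Place K F} (h : w ≠ v) :
    (D + Finsupp.single v 1 : Divisor K F) w = D w := by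
  rw [Finsupp.add_apply, Finsupp.single_eq_of_ne h, add_zero]

/-- leading coefficient at `v` of a repartition in `A(D + v)`. -/
noncomputable def jump (D : Divisor K F) (v : Place K F) :
    repartitionsOf (D + Finsupp.single v 1) →ₗ[K] v.ResidueField where
  toFun α := lead v (D v + 1) ⟨(α.1 : Place K F → F) v, by
    have := mem_repartitionsOf.mp α.2 v
    rwa [add_single_apply_same] at this⟩
  map_add' α β := by
    rw [← map_add]
    rfl
  map_smul' c α := by
    rw [← map_smul]
    rfl

theorem jump_surjective (D : Divisor K F) (v : Place K F) :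
    Function.Surjective (jump D v) := by
  intro y
  obtain ⟨f, rfl⟩ := lead_surjective (K := K) v (D v + 1) y
  have hmem : singleRep v (f : F) ∈ repartitionsOf (D + Finsupp.single v 1) := by
    rw [mem_repartitionsOf]
    intro w
    by_cases h : w = v
    · subst h
      rw [singleRep_same, add_single_apply_same]
      exact f.2
    · rw [singleRep_ne h]
      exact zero_mem _
  refine ⟨⟨_, hmem⟩, ?_⟩
  change lead v (D v + 1) ⟨_, _⟩ = _
  congr 1
  ext
  exact singleRep_same v f

theorem jump_eq_zero_iff (D : Divisor K F) (v : Place K F)
    (α : repartitionsOf (D + Finsupp.single v 1)) :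
    jump D v α = 0 ↔ (α : ↥(repartitions K F)) ∈ repartitionsOf D := by
  change lead v (D v + 1) ⟨_, _⟩ = 0 ↔ _
  rw [lead_eq_zero_iff, mem_repartitionsOf]
  simp only [add_sub_cancel_right]
  constructor
  · intro h w
    by_cases hw : w = v
    · subst hw; exact h
    · have := mem_repartitionsOf.mp α.2 w
      rwa [add_single_apply_ne D hw] at this
  · intro h
    exact h v

theorem repartitionsOf_le_add_single (D : Divisor K F) (v : Place K F) :
    repartitionsOf D ≤ repartitionsOf (D + Finsupp.single v 1) :=
  repartitionsOf_mono (le_add_single D v)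

/-- `L(D)` is `F ∩ A(D)`. -/
noncomputable def rrEquiv [hne : Nonempty (Place K F)] (D : Divisor K F) :
    riemannRochSpace D ≃ₗ[K] (principalRepartitions K F ⊓ repartitionsOf D :
      Submodule K ↥(repartitions K F)) := by
  refine LinearEquiv.ofBijective
    { toFun := fun f => ⟨algebraMap F ↥(repartitions K F) f.1, ⟨⟨f.1, rfl⟩, fun v => f.2 v⟩⟩
      map_add' := fun f g => by
        ext : 1
        exact map_add (algebraMap F ↥(repartitions K F)) f.1 g.1
      map_smul' := fun c f => by
        ext : 1
        change algebraMap F ↥(repartitions K F) (c • f.1) =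
          c • algebraMap F ↥(repartitions K F) f.1
        rw [Algebra.algebraMap_eq_smul_one, Algebra.algebraMap_eq_smul_one, smul_assoc] } ?_
  constructor
  · intro f g hfg
    have h1 : algebraMap F ↥(repartitions K F) f.1 = algebraMap F ↥(repartitions K F) g.1 :=
      congrArg Subtype.val hfg
    obtain ⟨v⟩ := hne
    have h2 := congrFun (congrArg Subtype.val h1) v
    exact Subtype.ext h2
  · rintro ⟨α, ⟨f, hf⟩, hα⟩
    subst hf
    exact ⟨⟨f, fun v => hα v⟩, rfl⟩

end Fermat.Agent.RR
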