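import Fermat.Agent.RR.Approx
import Mathlib.LinearAlgebra.FiniteDimensional.Lemmas
import Mathlib.LinearAlgebra.Dimension.RankNullity

/-!
# One-place jumps: leading coefficients at a place and the six-term exact sequence
-/

set_option autoImplicit false

open AlgebraicCurve WithZero Module

namespace Fermat.Agent.RR

variable {K F : Type*} [Field K] [Field F] [Algebra K F]

/-- A chosen uniformizer at `v`. -/
noncomputable def unif (v : Place K F) : F :=
  ((IsDiscreteValuationRing.exists_irreducible v.toValuationSubring).choose :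
    v.toValuationSubring)

theorem adicValuation_unif (v : Place K F) : v.adicValuation (unif v) = exp (-1 : ℤ) :=
  v.adicValuation_coe_irreducible
    (IsDiscreteValuationRing.exists_irreducible v.toValuationSubring).choose_spec

theorem unif_ne_zero (v : Place K F) : unif v ≠ 0 := by
  intro h
  have := adicValuation_unif v
  rw [h, map_zero] at this
  exact exp_ne_zero this.symm

theorem adicValuation_unif_zpow (v : Place K F) (n : ℤ) :
    v.adicValuation (unif v ^ n) = exp (-n) := by
  rw [map_zpow₀, adicValuation_unif, ← exp_zsmul]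
  simp

/-- The `K`-subspace of elements of `F` with pole order at most `n` at `v`. -/
def ball (v : Place K F) (n : ℤ) : Submodule K F where
  carrier := {f | v.adicValuation f ≤ exp n}
  zero_mem' := by simp
  add_mem' := by
    intro f g hf hg
    show v.adicValuation (f + g) ≤ exp n
    exact (Valuation.map_add _ _ _).trans (max_le hf hg)
  smul_mem' := by
    intro c f hf
    show v.adicValuation (c • f) ≤ exp n
    rw [Algebra.smul_def, map_mul]
    exact (mul_le_of_le_one_left' (v.adicValuation_algebraMap_le_one c)).trans hf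

theorem mem_ball {v : Place K F} {n : ℤ} {f : F} :
    f ∈ ball v n ↔ v.adicValuation f ≤ exp n := Iff.rfl

theorem mul_unif_zpow_mem {v : Place K F} {n : ℤ} {f : F} (hf : f ∈ ball v n) :
    f * unif v ^ n ∈ v.toValuationSubring := by
  rw [mem_iff_adicValuation_le_one, map_mul, adicValuation_unif_zpow]
  calc v.adicValuation f * exp (-n) ≤ exp n * exp (-n) := by
        gcongr
        exact mem_ball.mp hf
    _ = 1 := by rw [← exp_add]; simp

/-- The leading coefficient (at pole order `n`) of an element of `ball v n`. -/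
noncomputable def lead (v : Place K F) (n : ℤ) : ball v n →ₗ[K] v.ResidueField where
  toFun f := IsLocalRing.residue _ ⟨(f : F) * unif v ^ n, mul_unif_zpow_mem f.2⟩
  map_add' f g := by
    rw [← map_add]
    congr 1
    ext
    simp [add_mul]
  map_smul' c f := by
    rw [RingHom.id_apply, Algebra.smul_def c, IsScalarTower.algebraMap_apply K
      v.toValuationSubring v.ResidueField, IsLocalRing.ResidueField.algebraMap_eq, ← map_mul]
    congr 1
    ext
    simp [Algebra.smul_def, mul_assoc]

theorem lead_eq_zero_iff (v : Place K F) (n : ℤ) (f : ball v n) :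
    lead v n f = 0 ↔ (f : F) ∈ ball v (n - 1) := by
  change IsLocalRing.residue _ (⟨(f : F) * unif v ^ n, mul_unif_zpow_mem f.2⟩ :
    v.toValuationSubring) = 0 ↔ _
  rw [IsLocalRing.residue_eq_zero_iff, IsLocalRing.mem_maximalIdeal, mem_nonunits_iff,
    ← v.adicValuation_coe_eq_one_iff, mem_ball]
  simp only [map_mul, adicValuation_unif_zpow]
  have hf : v.adicValuation (f : F) ≤ exp n := f.2
  rcases eq_or_ne (f : F) 0 with h0 | h0
  · simp [h0]
  · rw [v.adicValuation_eq_exp_neg_ord h0] at hf ⊢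
    rw [← exp_add, ← exp_zero, exp_inj, exp_le_exp]
    rw [exp_le_exp] at hf
    omega

theorem lead_surjective (v : Place K F) (n : ℤ) : Function.Surjective (lead v n) := by
  intro y
  obtain ⟨a, rfl⟩ := IsLocalRing.residue_surjective y
  have ha : (a : F) * unif v ^ (-n) ∈ ball v n := by
    rw [mem_ball, map_mul, adicValuation_unif_zpow, neg_neg]
    exact mul_le_of_le_one_left' (v.adicValuation_le_one_of_mem a.2)
  refine ⟨⟨_, ha⟩, ?_⟩
  change IsLocalRing.residue _ _ = _
  congr 1
  ext
  simp only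
  rw [mul_assoc, ← zpow_add₀ (unif_ne_zero v), neg_add_cancel, zpow_zero, mul_one]

section LinearAlgebra

variable {V W : Type*} [AddCommGroup V] [Module K V] [AddCommGroup W] [Module K W]

/-- Abstract six-term sequence: `0 → P ∩ A → P ∩ A' → A'/A = W → V/(A+P) → V/(A'+P) → 0`. -/
theorem six_term (A A' P : Submodule K V) (hAA' : A ≤ A') (j : A' →ₗ[K] W)
    (hj : Function.Surjective j) (hker : ∀ a : A', j a = 0 ↔ (a : V) ∈ A)
    [FiniteDimensional K W] :
    ∃ (h : (P ⊓ A' : Submodule K V) →ₗ[K] W) (f : W →ₗ[K] V ⧸ (A ⊔ P))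
      (g : V ⧸ (A ⊔ P) →ₗ[K] V ⧸ (A' ⊔ P)),
      (∀ x, h x = 0 ↔ (x : V) ∈ (P ⊓ A : Submodule K V)) ∧ LinearMap.range h = LinearMap.ker f ∧
      LinearMap.range f = LinearMap.ker g ∧ Function.Surjective g ∧
      ∀ a : A', f (j a) = (A ⊔ P).mkQ (a : V) := by
  let h : (P ⊓ A' : Submodule K V) →ₗ[K] W :=
    j.comp (Submodule.inclusion (inf_le_right : P ⊓ A' ≤ A'))
  let q : A' →ₗ[K] V ⧸ (A ⊔ P) := (A ⊔ P).mkQ.comp A'.subtype
  have hq : LinearMap.ker j ≤ LinearMap.ker q := by
    intro a ha
    rw [LinearMap.mem_ker] at ha ⊢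
    change (A ⊔ P).mkQ (a : V) = 0
    rw [Submodule.mkQ_apply, Submodule.Quotient.mk_eq_zero]
    exact Submodule.mem_sup_left ((hker a).mp ha)
  let f : W →ₗ[K] V ⧸ (A ⊔ P) :=
    ((LinearMap.ker j).liftQ q hq).comp (j.quotKerEquivOfSurjective hj).symm.toLinearMap
  have hf : ∀ a : A', f (j a) = (A ⊔ P).mkQ (a : V) := by
    intro a
    change ((LinearMap.ker j).liftQ q hq) ((j.quotKerEquivOfSurjective hj).symm (j a)) = _
    have : (j.quotKerEquivOfSurjective hj).symm (j a) = (LinearMap.ker j).mkQ a := by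
      rw [LinearEquiv.symm_apply_eq]
      rfl
    rw [this]
    rfl
  let g : V ⧸ (A ⊔ P) →ₗ[K] V ⧸ (A' ⊔ P) :=
    Submodule.factor (sup_le_sup_right hAA' P)
  refine ⟨h, f, g, ?_, ?_, ?_, ?_, hf⟩
  · intro x
    have h1 : h x = j ⟨(x : V), x.2.2⟩ := rfl
    rw [h1, hker, Submodule.mem_inf]
    exact ⟨fun h => ⟨x.2.1, h⟩, fun h => h.2⟩
  · ext w
    rw [LinearMap.mem_range, LinearMap.mem_ker]
    constructor
    · rintro ⟨x, rfl⟩
      have h1 : h x = j ⟨(x : V), x.2.2⟩ := rfl
      rw [h1, hf, Submodule.mkQ_apply, Submodule.Quotient.mk_eq_zero]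
      exact Submodule.mem_sup_right x.2.1
    · intro hw
      obtain ⟨a, rfl⟩ := hj w
      rw [hf, Submodule.mkQ_apply, Submodule.Quotient.mk_eq_zero, Submodule.mem_sup] at hw
      obtain ⟨b, hb, p, hp, hbp⟩ := hw
      have hpA' : p ∈ A' := by
        have : p = (a : V) - b := by rw [← hbp]; abel
        rw [this]
        exact sub_mem a.2 (hAA' hb)
      refine ⟨⟨p, hp, hpA'⟩, ?_⟩
      have h1 : h ⟨p, hp, hpA'⟩ = j ⟨p, hpA'⟩ := rfl
      rw [h1, ← sub_eq_zero, ← map_sub, hker]
      have : (((⟨p, hpA'⟩ - a : A') : V)) = -b := by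
        simp [← hbp]
      rw [this]
      exact neg_mem hb
  · ext w
    rw [LinearMap.mem_range, LinearMap.mem_ker]
    constructor
    · rintro ⟨y, rfl⟩
      obtain ⟨a, rfl⟩ := hj y
      rw [hf]
      change (A' ⊔ P).mkQ (a : V) = 0
      rw [Submodule.mkQ_apply, Submodule.Quotient.mk_eq_zero]
      exact Submodule.mem_sup_left a.2
    · obtain ⟨x, rfl⟩ := (A ⊔ P).mkQ_surjective w
      intro hw
      change (A' ⊔ P).mkQ x = 0 at hw
      rw [Submodule.mkQ_apply, Submodule.Quotient.mk_eq_zero, Submodule.mem_sup] at hw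
      obtain ⟨a, ha, p, hp, hap⟩ := hw
      refine ⟨j ⟨a, ha⟩, ?_⟩
      rw [hf, ← sub_eq_zero, ← map_sub, Submodule.mkQ_apply, Submodule.Quotient.mk_eq_zero]
      have : ((⟨a, ha⟩ : A') : V) - x = -p := by simp [← hap]
      rw [this]
      exact Submodule.mem_sup_right (neg_mem hp)
  · exact Submodule.factor_surjective _

theorem six_term_finiteDimensional_iff (A A' P : Submodule K V) (hAA' : A ≤ A') (j : A' →ₗ[K] W)
    (hj : Function.Surjective j) (hker : ∀ a : A', j a = 0 ↔ (a : V) ∈ A)
    [FiniteDimensional K W] :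
    FiniteDimensional K (V ⧸ (A ⊔ P)) ↔ FiniteDimensional K (V ⧸ (A' ⊔ P)) := by
  obtain ⟨h, f, g, hh, hhf, hfg, hg, hfj⟩ := six_term A A' P hAA' j hj hker
  constructor
  · intro hfin
    exact Module.Finite.of_surjective g hg
  · intro hfin
    have h1 : Module.Finite K (LinearMap.ker g) := by
      rw [← hfg]; infer_instance
    have h2 : Module.Finite K (LinearMap.range g) := inferInstance
    have h3 : Module.Finite K (_ ⧸ LinearMap.ker g) := Module.Finite.equiv g.quotKerEquivRange.symm
    exact Module.Finite.of_submodule_quotient (LinearMap.ker g)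

theorem six_term_finiteDimensional_inf_iff (A A' P : Submodule K V) (hAA' : A ≤ A')
    (j : A' →ₗ[K] W) (hj : Function.Surjective j) (hker : ∀ a : A', j a = 0 ↔ (a : V) ∈ A)
    [FiniteDimensional K W] :
    FiniteDimensional K (P ⊓ A : Submodule K V) ↔ FiniteDimensional K (P ⊓ A' : Submodule K V) := by
  obtain ⟨h, f, g, hh, hhf, hfg, hg, hfj⟩ := six_term A A' P hAA' j hj hker
  have e : (LinearMap.ker h) ≃ₗ[K] (P ⊓ A : Submodule K V) :=
    { toFun := fun x => ⟨(x.1 : V), (hh x.1).mp x.2⟩
      invFun := fun y => ⟨⟨(y : V), y.2.1, hAA' y.2.2⟩, (hh _).mpr y.2⟩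
      map_add' := fun _ _ => rfl
      map_smul' := fun _ _ => rfl
      left_inv := fun _ => rfl
      right_inv := fun _ => rfl }
  constructor
  · intro hfin
    have h1 : Module.Finite K (LinearMap.ker h) := Module.Finite.equiv e.symm
    have h3 : Module.Finite K (_ ⧸ LinearMap.ker h) := Module.Finite.equiv h.quotKerEquivRange.symm
    exact Module.Finite.of_submodule_quotient (LinearMap.ker h)
  · intro hfin
    exact Module.Finite.equiv e

theorem six_term_finrank (A A' P : Submodule K V) (hAA' : A ≤ A') (j : A' →ₗ[K] W)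
    (hj : Function.Surjective j) (hker : ∀ a : A', j a = 0 ↔ (a : V) ∈ A)
    [FiniteDimensional K W] [FiniteDimensional K (P ⊓ A' : Submodule K V)]
    [FiniteDimensional K (V ⧸ (A ⊔ P))] :
    finrank K (V ⧸ (A ⊔ P)) + finrank K (P ⊓ A' : Submodule K V) =
      finrank K (V ⧸ (A' ⊔ P)) + finrank K (P ⊓ A : Submodule K V) + finrank K W := by
  obtain ⟨h, f, g, hh, hhf, hfg, hg, hfj⟩ := six_term A A' P hAA' j hj hker
  have e : (LinearMap.ker h) ≃ₗ[K] (P ⊓ A : Submodule K V) :=
    { toFun := fun x => ⟨(x.1 : V), (hh x.1).mp x.2⟩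
      invFun := fun y => ⟨⟨(y : V), y.2.1, hAA' y.2.2⟩, (hh _).mpr y.2⟩
      map_add' := fun _ _ => rfl
      map_smul' := fun _ _ => rfl
      left_inv := fun _ => rfl
      right_inv := fun _ => rfl }
  have h1 := h.finrank_range_add_finrank_ker
  have h2 := f.finrank_range_add_finrank_ker
  have h3 := g.finrank_range_add_finrank_ker
  rw [LinearMap.range_eq_top.mpr hg, finrank_top] at h3
  rw [e.finrank_eq, hhf] at h1
  rw [hfg] at h2
  omega

theorem six_term_step (A A' P : Submodule K V) (hAA' : A ≤ A') (j : A' →ₗ[K] W)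
    (hj : Function.Surjective j) (hker : ∀ a : A', j a = 0 ↔ (a : V) ∈ A)
    [FiniteDimensional K W] [FiniteDimensional K (P ⊓ A' : Submodule K V)] :
    finrank K (P ⊓ A : Submodule K V) ≤ finrank K (P ⊓ A' : Submodule K V) ∧
    finrank K (P ⊓ A' : Submodule K V) ≤ finrank K (P ⊓ A : Submodule K V) + finrank K W ∧
    (finrank K (P ⊓ A' : Submodule K V) = finrank K (P ⊓ A : Submodule K V) + finrank K W →
      A' ≤ A ⊔ P) := by
  obtain ⟨h, f, g, hh, hhf, hfg, hg, hfj⟩ := six_term A A' P hAA' j hj hker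
  have e : (LinearMap.ker h) ≃ₗ[K] (P ⊓ A : Submodule K V) :=
    { toFun := fun x => ⟨(x.1 : V), (hh x.1).mp x.2⟩
      invFun := fun y => ⟨⟨(y : V), y.2.1, hAA' y.2.2⟩, (hh _).mpr y.2⟩
      map_add' := fun _ _ => rfl
      map_smul' := fun _ _ => rfl
      left_inv := fun _ => rfl
      right_inv := fun _ => rfl }
  have h1 := h.finrank_range_add_finrank_ker
  rw [e.finrank_eq] at h1
  have h3 : finrank K (LinearMap.range h) ≤ finrank K W := Submodule.finrank_le _
  refine ⟨by omega, by omega, fun heq => ?_⟩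
  have h4 : finrank K (LinearMap.range h) = finrank K W := by omega
  have h5 : LinearMap.range h = ⊤ := Submodule.eq_top_of_finrank_eq h4
  have h6 : f = 0 := by
    rw [← LinearMap.ker_eq_top, ← hhf, h5]
  intro a ha
  have h7 := hfj ⟨a, ha⟩
  rw [h6, LinearMap.zero_apply] at h7
  exact (Submodule.Quotient.mk_eq_zero _).mp h7.symm

end LinearAlgebra

end Fermat.Agent.RR
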