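import Fermat.Agent.RR.Euler
import Mathlib.FieldTheory.IntermediateField.Adjoin.Algebra
import Mathlib.RingTheory.Localization.Module
import Mathlib.RingTheory.Algebraic.Basic

/-!
# The degree of the pole divisor is at most `[F : K(x)]`
-/

set_option autoImplicit false

open AlgebraicCurve WithZero Module Polynomial
open scoped IntermediateField

namespace Fermat.Agent.RR

variable {K F : Type*} [Field K] [Field F] [Algebra K F]

/-- Elements with prescribed pole bounds at the places of `T`. -/
def locSpace (T : Finset (Place K F)) (n : Place K F → ℤ) : Submodule K F :=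
  ⨅ v ∈ T, ball v (n v)

theorem mem_locSpace {T : Finset (Place K F)} {n : Place K F → ℤ} {f : F} :
    f ∈ locSpace T n ↔ ∀ v ∈ T, v.adicValuation f ≤ exp (n v) := by
  simp [locSpace, Submodule.mem_iInf, mem_ball]

/-- The subspace of `O_T` of elements with zeros of order at least `e v` at `v ∈ T`. -/
def zeroSpace (T : Finset (Place K F)) (e : Place K F → ℕ) : Submodule K (locSpace T 0) :=
  (locSpace T (fun v => -(e v : ℤ))).comap (locSpace T 0).subtype

theorem mem_zeroSpace {T : Finset (Place K F)} {e : Place K F → ℕ} {f : locSpace T 0} :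
    f ∈ zeroSpace T e ↔ ∀ v ∈ T, v.adicValuation (f : F) ≤ exp (-(e v : ℤ)) := by
  simp [zeroSpace, mem_locSpace]

/-- leading coefficient on `zeroSpace T e` at `v ∈ T` -/
noncomputable def locJump (T : Finset (Place K F)) (e : Place K F → ℕ) (v : Place K F)
    (hv : v ∈ T) : zeroSpace T e →ₗ[K] v.ResidueField where
  toFun f := lead v (-(e v : ℤ)) ⟨(f.1 : F), mem_zeroSpace.mp f.2 v hv⟩
  map_add' α β := by
    rw [← map_add]
    rfl
  map_smul' c α := by
    rw [← map_smul]
    rfl

theorem locJump_surjective (T : Finset (Place K F)) (e : Place K F → ℕ) (v : Place K F)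
    (hv : v ∈ T) : Function.Surjective (locJump T e v hv) := by
  classical
  intro y
  obtain ⟨f, rfl⟩ := lead_surjective (K := K) v (-(e v : ℤ)) y
  obtain ⟨z, hz⟩ := exists_approx' T (fun w => if w = v then (f : F) else 0)
    (fun w => -(e w : ℤ) - 1)
  have hz1 : ∀ w ∈ T, w.adicValuation z ≤ exp (-(e w : ℤ)) := by
    intro w hw
    have h1 := hz w hw
    by_cases hwv : w = v
    · subst hwv
      simp only [if_true] at h1
      have : z = (z - f) + f := by ring
      rw [this]
      refine (Valuation.map_add _ _ _).trans (max_le (h1.trans ?_) f.2)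
      rw [exp_le_exp]; omega
    · simp only [hwv, if_false, sub_zero] at h1
      refine h1.trans ?_
      rw [exp_le_exp]; omega
  have hz0 : z ∈ locSpace T 0 := by
    rw [mem_locSpace]
    intro w hw
    refine (hz1 w hw).trans ?_
    rw [Pi.zero_apply, exp_le_exp]
    omega
  refine ⟨⟨⟨z, hz0⟩, mem_zeroSpace.mpr hz1⟩, ?_⟩
  change lead v (-(e v : ℤ)) ⟨z, _⟩ = _
  rw [← sub_eq_zero, ← map_sub, lead_eq_zero_iff]
  have h1 := hz v hv
  simp only [if_true] at h1
  exact h1

theorem locJump_eq_zero_iff (T : Finset (Place K F)) (e e' : Place K F → ℕ) (v : Place K F)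
    (hv : v ∈ T) (he : e' v = e v + 1) (he' : ∀ w, w ≠ v → e' w = e w) (f : zeroSpace T e) :
    locJump T e v hv f = 0 ↔ (f : locSpace T 0) ∈ zeroSpace T e' := by
  change lead v (-(e v : ℤ)) ⟨_, _⟩ = 0 ↔ _
  rw [lead_eq_zero_iff, mem_zeroSpace]
  constructor
  · intro h w hw
    by_cases hwv : w = v
    · subst hwv
      rw [he]
      have h2 := mem_ball.mp h
      simp only at h2
      convert h2 using 2
      push_cast; ring
    · rw [he' w hwv]
      exact mem_zeroSpace.mp f.2 w hw
  · intro h
    have h2 := h v hv
    rw [he] at h2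
    rw [mem_ball]
    convert h2 using 2
    push_cast; ring

theorem zeroSpace_finrank [∀ v : Place K F, v.FiniteResidue] (T : Finset (Place K F))
    (s : ℕ) : ∀ e : Place K F → ℕ, ∑ v ∈ T, e v = s →
    FiniteDimensional K (locSpace T 0 ⧸ (zeroSpace T e ⊔ ⊥)) ∧
      finrank K (locSpace T 0 ⧸ (zeroSpace T e ⊔ ⊥)) = ∑ v ∈ T, e v * v.deg := by
  classical
  induction s with
  | zero =>
    intro e he
    have he0 : ∀ v ∈ T, e v = 0 := by
      intro v hv
      exact (Finset.sum_eq_zero_iff.mp he) v hv
    have htop : zeroSpace T e = ⊤ := by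
      rw [eq_top_iff]
      intro f _
      rw [mem_zeroSpace]
      intro v hv
      have := mem_locSpace.mp f.2 v hv
      rw [he0 v hv]
      simpa using this
    rw [htop, top_sup_eq]
    refine ⟨inferInstance, ?_⟩
    rw [Finset.sum_eq_zero (fun v hv => by rw [he0 v hv, zero_mul])]
    exact finrank_zero_of_subsingleton
  | succ s ih =>
    intro e he
    obtain ⟨v, hv, hev⟩ : ∃ v ∈ T, e v ≠ 0 := by
      by_contra hcon
      push Not at hcon
      rw [Finset.sum_eq_zero hcon] at he
      omega
    set e' : Place K F → ℕ := Function.update e v (e v - 1) with he'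
    have h1 : e v = e' v + 1 := by
      rw [he', Function.update_self]; omega
    have h2 : ∀ w, w ≠ v → e w = e' w := by
      intro w hw
      rw [he', Function.update_of_ne hw]
    have hsum : ∀ g : Place K F → ℕ, ∑ w ∈ T, e w * g w = ∑ w ∈ T, e' w * g w + g v := by
      intro g
      rw [← Finset.add_sum_erase T _ hv, ← Finset.add_sum_erase T (fun w => e' w * g w) hv, h1,
        Finset.sum_congr rfl (fun w hw => by rw [h2 w (Finset.ne_of_mem_erase hw)])]
      ring
    have hs' : ∑ w ∈ T, e' w = s := by
      have := hsum (fun _ => 1)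
      simp only [mul_one] at this
      omega
    obtain ⟨hfin, hrank⟩ := ih e' hs'
    have hle : zeroSpace T e ≤ zeroSpace T e' := by
      intro f hf
      rw [mem_zeroSpace] at hf ⊢
      intro w hw
      refine (hf w hw).trans ?_
      rw [exp_le_exp]
      by_cases hwv : w = v
      · subst hwv; omega
      · rw [h2 w hwv]
    have hker := locJump_eq_zero_iff T e' e v hv h1 h2
    have hfin' := (six_term_finiteDimensional_iff (zeroSpace T e) (zeroSpace T e') ⊥ hle
      (locJump T e' v hv) (locJump_surjective T e' v hv) hker).mpr hfin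
    refine ⟨hfin', ?_⟩
    have hbot : ∀ A : Submodule K (locSpace T 0), finrank K (⊥ ⊓ A : Submodule K (locSpace T 0)) = 0 := by
      intro A
      rw [bot_inf_eq, finrank_bot]
    have : FiniteDimensional K (⊥ ⊓ zeroSpace T e' : Submodule K (locSpace T 0)) := by
      rw [bot_inf_eq]; infer_instance
    have h3 := six_term_finrank (zeroSpace T e) (zeroSpace T e') ⊥ hle
      (locJump T e' v hv) (locJump_surjective T e' v hv) hker
    rw [hbot, hbot, hrank] at h3
    rw [hsum (fun w => w.deg)]
    exact h3

/-- For a polynomial `p` of degree at most `m`, `p(x) / x ^ m` is congruent to the coefficient of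
degree `m` modulo `x⁻¹`. -/
theorem adicValuation_aeval_sub_le (v : Place K F) {x : F} (hx : 1 < v.adicValuation x) (p : K[X])
    (m : ℕ) (hp : p.natDegree ≤ m) :
    v.adicValuation (aeval x p * (x ^ m)⁻¹ - algebraMap K F (p.coeff m)) ≤
      (v.adicValuation x)⁻¹ := by
  have hx0 : x ≠ 0 := by
    rintro rfl
    simp at hx
  have hvx0 : v.adicValuation x ≠ 0 := v.adicValuation_ne_zero hx0
  have h1 : aeval x p * (x ^ m)⁻¹ - algebraMap K F (p.coeff m) =
      ∑ i ∈ Finset.range m, algebraMap K F (p.coeff i) * x ^ i * (x ^ m)⁻¹ := by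
    rw [aeval_eq_sum_range' (Nat.lt_succ_of_le hp), Finset.sum_range_succ, add_mul,
      Finset.sum_mul]
    simp only [Algebra.smul_def]
    field_simp
    ring
  rw [h1]
  apply Valuation.map_sum_le
  intro i hi
  rw [Finset.mem_range] at hi
  rw [map_mul, map_mul, map_inv₀, map_pow, map_pow]
  obtain ⟨k, rfl⟩ : ∃ k, m = i + 1 + k := ⟨m - (i + 1), by omega⟩
  calc v.adicValuation (algebraMap K F (p.coeff i)) * v.adicValuation x ^ i *
        (v.adicValuation x ^ (i + 1 + k))⁻¹
      ≤ 1 * v.adicValuation x ^ i * (v.adicValuation x ^ (i + 1 + k))⁻¹ := by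
        gcongr
        exact v.adicValuation_algebraMap_le_one _
    _ = (v.adicValuation x ^ (1 + k))⁻¹ := by
        rw [one_mul, add_assoc, pow_add, mul_inv, ← mul_assoc, mul_inv_cancel₀ (pow_ne_zero _ hvx0),
          one_mul]
    _ ≤ (v.adicValuation x ^ 1)⁻¹ := by
        have h2 : v.adicValuation x ^ 1 ≤ v.adicValuation x ^ (1 + k) :=
          pow_le_pow_right₀ hx.le (by omega)
        exact inv_anti₀ (zero_lt_iff.mpr (pow_ne_zero _ hvx0)) h2
    _ = _ := by rw [pow_one]

open scoped IntermediateField.algebraAdjoinAdjoin in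
/-- The pole degree bound. -/
theorem sum_poles_le [∀ v : Place K F, v.FiniteResidue] (x : F)
    [FiniteDimensional K⟮x⟯ F] (T : Finset (Place K F)) (hT : ∀ v ∈ T, v.ord x < 0) :
    ∑ v ∈ T, (-v.ord x).toNat * v.deg ≤ finrank K⟮x⟯ F := by
  classical
  rcases T.eq_empty_or_nonempty with hTe | ⟨v0, hv0⟩
  · simp [hTe]
  obtain ⟨hfin, hrank⟩ := zeroSpace_finrank T _ (fun v => (-v.ord x).toNat) rfl
  rw [← hrank]
  rw [sup_bot_eq] at hfin ⊢
  set e : Place K F → ℕ := fun v => (-v.ord x).toNat with he
  have hx0 : x ≠ 0 := by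
    rintro rfl
    have := hT v0 hv0
    simp at this
  have hval : ∀ v ∈ T, v.adicValuation x = exp (e v : ℤ) := by
    intro v hv
    rw [v.adicValuation_eq_exp_neg_ord hx0, he]
    congr 1
    have := hT v hv
    simp only
    omega
  have hval1 : ∀ v ∈ T, 1 < v.adicValuation x := by
    intro v hv
    rw [v.adicValuation_eq_exp_neg_ord hx0, ← exp_zero, exp_lt_exp]
    have := hT v hv
    omega
  let b := Module.finBasis K (locSpace T 0 ⧸ zeroSpace T e)
  choose z hz using fun k => (zeroSpace T e).mkQ_surjective (b k)
  have hli : LinearIndependent K⟮x⟯ (fun k => (z k : F)) := by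
    rw [← LinearIndependent.iff_fractionRing (R := Algebra.adjoin K {x}) (K := K⟮x⟯),
      Fintype.linearIndependent_iff]
    intro c hc
    have hpc : ∀ k, ∃ p : K[X], aeval x p = (c k : F) := by
      intro k
      have h := Algebra.adjoin_singleton_eq_range_aeval K x
      have h2 : (c k : F) ∈ Algebra.adjoin K {x} := (c k).2
      exact (SetLike.ext_iff.mp h (c k : F)).mp h2
    choose p hp using hpc
    set m := Finset.univ.sup (fun k => (p k).natDegree) with hm
    have hpm : ∀ k, (p k).natDegree ≤ m := fun k => Finset.le_sup (f := fun k => (p k).natDegree)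
      (Finset.mem_univ k)
    have hc' : ∑ k, aeval x (p k) * (z k : F) = 0 := by
      rw [← hc]
      refine Finset.sum_congr rfl fun k _ => ?_
      rw [hp k, Algebra.smul_def]
      rfl
    -- all top coefficients vanish
    have htop : ∀ k, (p k).coeff m = 0 := by
      have h1 : (∑ k, (p k).coeff m • b k) = 0 := by
        have h2 : (∑ k, (p k).coeff m • b k) =
            (zeroSpace T e).mkQ (∑ k, (p k).coeff m • z k) := by
          rw [map_sum]
          refine Finset.sum_congr rfl fun k _ => ?_
          rw [map_smul, hz]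
        rw [h2, Submodule.mkQ_apply, Submodule.Quotient.mk_eq_zero, mem_zeroSpace]
        intro v hv
        have h3 : ((∑ k, (p k).coeff m • z k : locSpace T 0) : F) =
            -∑ k, (aeval x (p k) * (x ^ m)⁻¹ - algebraMap K F ((p k).coeff m)) * (z k : F) := by
          have h4 : ∑ k, (aeval x (p k) * (x ^ m)⁻¹) * (z k : F) = 0 := by
            have : ∑ k, (aeval x (p k) * (x ^ m)⁻¹) * (z k : F) =
                (x ^ m)⁻¹ * ∑ k, aeval x (p k) * (z k : F) := by
              rw [Finset.mul_sum]
              refine Finset.sum_congr rfl fun k _ => by ring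
            rw [this, hc', mul_zero]
          simp_rw [sub_mul]
          rw [Finset.sum_sub_distrib, h4, zero_sub, neg_neg]
          rw [AddSubmonoidClass.coe_finset_sum]
          refine Finset.sum_congr rfl fun k _ => ?_
          rw [Submodule.coe_smul, Algebra.smul_def]
        rw [h3, Valuation.map_neg]
        apply Valuation.map_sum_le
        intro k _
        rw [map_mul]
        have h5 := adicValuation_aeval_sub_le v (hval1 v hv) (p k) m (hpm k)
        have h6 : v.adicValuation (z k : F) ≤ 1 := by
          have := mem_locSpace.mp (z k).2 v hv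
          simpa using this
        calc _ ≤ (v.adicValuation x)⁻¹ * 1 := by gcongr
          _ = exp (-(e v : ℤ)) := by rw [mul_one, hval v hv, exp_neg]
      exact Fintype.linearIndependent_iff.mp b.linearIndependent _ h1
    -- hence all `p k` vanish
    have hp0 : ∀ k, p k = 0 := by
      intro k
      by_contra hk
      rcases Nat.eq_zero_or_pos m with hm0 | hm0
      · have h1 : (p k).natDegree = 0 := by have := hpm k; omega
        have h2 := htop k
        rw [hm0] at h2
        rw [Polynomial.eq_C_of_natDegree_eq_zero h1, h2] at hk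
        exact hk (by simp)
      · obtain ⟨k', -, hk'⟩ := Finset.exists_mem_eq_sup Finset.univ ⟨k, Finset.mem_univ k⟩
          (fun k => (p k).natDegree)
        rw [← hm] at hk'
        have h2 := htop k'
        rw [hk'] at h2
        have h3 : (p k') = 0 := by
          rw [← Polynomial.leadingCoeff_eq_zero]
          exact h2
        rw [h3, natDegree_zero] at hk'
        omega
    intro k
    ext
    rw [← hp k, hp0 k]
    simp
  have := hli.fintype_card_le_finrank
  rwa [Fintype.card_fin] at this

end Fermat.Agent.RR
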